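import Mathlib

/-!
# Hilbert 90 for cyclic extensions, universe polymorphic

Mathlib's `groupCohomology.exists_div_of_norm_eq_one` is stated for fields in `Type`; here we
derive the cyclic form from Noether's form (which is universe polymorphic):
if `σ` generates `Gal(L/K)` and `N x = 1` then `x = σ y / y`.
-/

set_option autoImplicit false

namespace Fermat.Agent.H97

open groupCohomology

section H90

variable {K L : Type*} [Field K] [Field L] [Algebra K L]

/-- Partial products `x σ(x) ⋯ σ^{i-1}(x)`. -/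
noncomputable def h90Partial (σ : L ≃ₐ[K] L) (x : Lˣ) : ℕ → Lˣ
  | 0 => 1
  | (i + 1) => x * σ • h90Partial σ x i

@[simp] theorem h90Partial_zero (σ : L ≃ₐ[K] L) (x : Lˣ) : h90Partial σ x 0 = 1 := rfl

theorem h90Partial_succ (σ : L ≃ₐ[K] L) (x : Lˣ) (i : ℕ) :
    h90Partial σ x (i + 1) = x * σ • h90Partial σ x i := rfl

theorem h90Partial_one (σ : L ≃ₐ[K] L) (x : Lˣ) : h90Partial σ x 1 = x := by
  rw [h90Partial_succ, h90Partial_zero, smul_one, mul_one]

theorem h90Partial_add (σ : L ≃ₐ[K] L) (x : Lˣ) (i j : ℕ) :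
    h90Partial σ x (i + j) = h90Partial σ x i * (σ ^ i) • h90Partial σ x j := by
  induction i with
  | zero => simp
  | succ i ih =>
    rw [show i + 1 + j = (i + j) + 1 by omega, h90Partial_succ, ih, smul_mul', h90Partial_succ,
      smul_smul, ← pow_succ', mul_assoc]

theorem h90Partial_eq_prod (σ : L ≃ₐ[K] L) (x : Lˣ) (i : ℕ) :
    h90Partial σ x i = ∏ k ∈ Finset.range i, (σ ^ k) • x := by
  induction i with
  | zero => simp
  | succ i ih =>
    rw [h90Partial_succ, ih, Finset.prod_range_succ', Finset.smul_prod', pow_zero, one_smul,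
      mul_comm]
    congr 1
    refine Finset.prod_congr rfl fun k _ => ?_
    rw [smul_smul, ← pow_succ']

variable [FiniteDimensional K L] [IsGalois K L]

theorem h90Partial_orderOf (σ : L ≃ₐ[K] L) (hσ : ∀ τ : L ≃ₐ[K] L, τ ∈ Subgroup.zpowers σ)
    (x : Lˣ) (hx : Algebra.norm K (x : L) = 1) : h90Partial σ x (orderOf σ) = 1 := by
  classical
  rw [h90Partial_eq_prod]
  have h1 : ∏ k ∈ Finset.range (orderOf σ), (σ ^ k) • x = ∏ τ : L ≃ₐ[K] L, τ • x := by
    have himg : (Finset.range (orderOf σ)).image (fun k => σ ^ k) = Finset.univ := by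
      ext τ
      simp only [Finset.mem_image, Finset.mem_range, Finset.mem_univ, iff_true]
      have hτ := hσ τ
      rw [← mem_powers_iff_mem_zpowers, Submonoid.mem_powers_iff] at hτ
      obtain ⟨n, rfl⟩ := hτ
      exact ⟨n % orderOf σ, Nat.mod_lt _ (orderOf_pos σ), pow_mod_orderOf σ n⟩
    rw [← himg, Finset.prod_image]
    intro a ha b hb hab
    exact pow_injOn_Iio_orderOf (by simpa using ha) (by simpa using hb) hab
  rw [h1]
  apply Units.ext
  rw [Units.coe_prod, Units.val_one]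
  have h2 := Algebra.norm_eq_prod_automorphisms K (x : L)
  rw [hx, map_one] at h2
  rw [h2]
  rfl

theorem h90Partial_add_mul_orderOf (σ : L ≃ₐ[K] L)
    (hσ : ∀ τ : L ≃ₐ[K] L, τ ∈ Subgroup.zpowers σ)
    (x : Lˣ) (hx : Algebra.norm K (x : L) = 1) (i q : ℕ) :
    h90Partial σ x (i + orderOf σ * q) = h90Partial σ x i := by
  induction q with
  | zero => simp
  | succ q ih =>
    rw [show i + orderOf σ * (q + 1) = orderOf σ + (i + orderOf σ * q) by ring,
      h90Partial_add, h90Partial_orderOf σ hσ x hx, pow_orderOf_eq_one, one_smul, one_mul, ih]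

theorem h90Partial_congr (σ : L ≃ₐ[K] L) (hσ : ∀ τ : L ≃ₐ[K] L, τ ∈ Subgroup.zpowers σ)
    (x : Lˣ) (hx : Algebra.norm K (x : L) = 1) {i j : ℕ} (hij : σ ^ i = σ ^ j) :
    h90Partial σ x i = h90Partial σ x j := by
  have hmod : i % orderOf σ = j % orderOf σ := pow_eq_pow_iff_modEq.mp hij
  have hi := h90Partial_add_mul_orderOf σ hσ x hx (i % orderOf σ) (i / orderOf σ)
  have hj := h90Partial_add_mul_orderOf σ hσ x hx (j % orderOf σ) (j / orderOf σ)
  rw [Nat.mod_add_div] at hi hj
  rw [hi, hj, hmod]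

/-- **Hilbert 90** for a cyclic extension, in the form `N x = 1 → x = σ y / y`. -/
theorem hilbert90_cyclic (σ : L ≃ₐ[K] L) (hσ : ∀ τ : L ≃ₐ[K] L, τ ∈ Subgroup.zpowers σ)
    (x : Lˣ) (hx : Algebra.norm K (x : L) = 1) :
    ∃ y : Lˣ, (x : L) = σ (y : L) / (y : L) := by
  have hex : ∀ τ : L ≃ₐ[K] L, ∃ n : ℕ, σ ^ n = τ := fun τ => by
    have hτ := hσ τ
    rw [← mem_powers_iff_mem_zpowers, Submonoid.mem_powers_iff] at hτ
    exact hτ
  choose k hk using hex
  have hcoc : IsMulCocycle₁ (fun τ : L ≃ₐ[K] L => h90Partial σ x (k τ)) := by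
    intro g h
    show h90Partial σ x (k (g * h)) = g • h90Partial σ x (k h) * h90Partial σ x (k g)
    have h1 : σ ^ k (g * h) = σ ^ (k g + k h) := by rw [hk, pow_add, hk, hk]
    rw [h90Partial_congr σ hσ x hx h1, h90Partial_add, hk, mul_comm]
  obtain ⟨β, hβ⟩ := isMulCoboundary₁_of_isMulCocycle₁_of_aut_to_units _ hcoc
  refine ⟨β, ?_⟩
  have h1 := hβ σ
  have h2 : h90Partial σ x (k σ) = x := by
    rw [h90Partial_congr σ hσ x hx (show σ ^ k σ = σ ^ 1 by rw [hk, pow_one]), h90Partial_one]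
  simp only [h2] at h1
  have h3 := congrArg (fun u : Lˣ => (u : L)) h1
  simp only [Units.val_div_eq_div_val] at h3
  rw [← h3]
  rfl

end H90

end Fermat.Agent.H97
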