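/-
P-CFT / LOCAL row LOC-7 (helper97): `Eˣ / (Eˣ)^p` is finite for a finite extension `E` of the
henselian local field `K_v ⊆ ℚ̄`.

Main result: `Fermat.Agent.H97.powFinite : Fermat.Agent.H78.CFT.PowFiniteStatement`.

Method (no completion, no non-monic Hensel):
* `val_natCast_le_val_one_sub`: `v(p) ≤ v(1 - ζ)` for a `p`-th root of unity `ζ ≠ 1`;
* `pthRoot_unique`: two `p`-th roots of the same element which are both `v(p)`-close to `1` agree;
* `exists_pthRoot_close`: if `v(u - 1) < v(p)^p` then `u` has a `p`-th root `v(p)`-close to `1`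
  in an algebraically closed field;
* `exists_pthRoot_mem`: the root lies in `E` (Galois invariance of the valuation + uniqueness);
* `exists_approx`: finitely many representatives of `O_E / ϖ^m`;
* `powFinite`: assembly.
-/
import Fermat.Agent.H78.CFT.LocalRows
import Fermat.Agent.H81.Local.LocalDatum

set_option autoImplicit false

open Polynomial IntermediateField

open scoped NNReal

namespace Fermat.Agent.H97

open Fermat.Agent.H81.Local

section General

variable {L : Type*} [Field L] {Γ₀ : Type*} [LinearOrderedCommGroupWithZero Γ₀]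
  (w : Valuation L Γ₀)

/-- A root of unity has valuation `≤ 1`. -/
theorem pf_val_le_one_of_pow_eq_one {p : ℕ} (hp : p ≠ 0) {ζ : L} (hζ : ζ ^ p = 1) : w ζ ≤ 1 := by
  by_contra h
  have h1 : 1 < w ζ := not_le.mp h
  have h2 : 1 < w ζ ^ p := one_lt_pow₀ h1 hp
  rw [← map_pow, hζ, map_one] at h2
  exact lt_irrefl _ h2

/-- `v(p) ≤ v(1 - ζ)` for a `p`-th root of unity `ζ ≠ 1`. -/
theorem val_natCast_le_val_one_sub {p : ℕ} {ζ : L} (hζ : ζ ^ p = 1) (hζ1 : ζ ≠ 1) :
    w (p : L) ≤ w (1 - ζ) := by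
  rcases Nat.eq_zero_or_pos p with hp | hp
  · subst hp
    simp
  have hwζ : w ζ ≤ 1 := pf_val_le_one_of_pow_eq_one w hp.ne' hζ
  have hsum : ∑ i ∈ Finset.range p, ζ ^ i = 0 := by
    have h1 := geom_sum_mul ζ p
    rw [hζ, sub_self] at h1
    rcases mul_eq_zero.mp h1 with h | h
    · exact h
    · exact absurd (sub_eq_zero.mp h) hζ1
  have hp_eq : (p : L) = (1 - ζ) * ∑ k ∈ Finset.range p, ∑ j ∈ Finset.range k, ζ ^ j := by
    rw [Finset.mul_sum]
    have : ∀ k ∈ Finset.range p, (1 - ζ) * ∑ j ∈ Finset.range k, ζ ^ j = 1 - ζ ^ k :=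
      fun k _ => mul_neg_geom_sum ζ k
    rw [Finset.sum_congr rfl this, Finset.sum_sub_distrib, hsum, sub_zero]
    simp
  have hS : w (∑ k ∈ Finset.range p, ∑ j ∈ Finset.range k, ζ ^ j) ≤ 1 := by
    apply Valuation.map_sum_le
    intro k _
    apply Valuation.map_sum_le
    intro j _
    rw [map_pow]
    exact pow_le_one₀ zero_le hwζ
  calc w (p : L) = w (1 - ζ) * w (∑ k ∈ Finset.range p, ∑ j ∈ Finset.range k, ζ ^ j) := by
        rw [← map_mul, ← hp_eq]
    _ ≤ w (1 - ζ) * 1 := by gcongr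
    _ = w (1 - ζ) := mul_one _

/-- An element `v(p)`-close to `1` has valuation `1`. -/
theorem pf_val_eq_one_of_close {p : ℕ} {α : L} (hα : w (α - 1) < w (p : L)) : w α = 1 := by
  have hp1 : w (p : L) ≤ 1 := by
    have := Valuation.map_sum_le w (s := Finset.range p) (f := fun _ => (1 : L)) (g := 1)
      (fun _ _ => by rw [map_one])
    simpa using this
  have h1 : w (α - 1) < 1 := lt_of_lt_of_le hα hp1
  have h2 := Valuation.map_one_add_of_lt w h1
  rwa [add_sub_cancel] at h2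

/-- Two `p`-th roots of the same element that are `v(p)`-close to `1` are equal. -/
theorem pthRoot_unique {p : ℕ} {α β : L} (h : α ^ p = β ^ p)
    (hα : w (α - 1) < w (p : L)) (hβ : w (β - 1) < w (p : L)) : α = β := by
  by_contra hne
  have hwβ : w β = 1 := pf_val_eq_one_of_close w hβ
  have hβ0 : β ≠ 0 := by
    intro h0
    rw [h0, map_zero] at hwβ
    exact zero_ne_one hwβ
  set ζ : L := α / β with hζdef
  have hζp : ζ ^ p = 1 := by
    rw [hζdef, div_pow, h, div_self (pow_ne_zero p hβ0)]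
  have hζ1 : ζ ≠ 1 := by
    intro h1
    apply hne
    rw [hζdef, div_eq_one_iff_eq hβ0] at h1
    exact h1
  have hle := val_natCast_le_val_one_sub w hζp hζ1
  have hdiff : β - α = β * (1 - ζ) := by
    rw [hζdef]
    field_simp
  have h3 : w (β - α) = w (1 - ζ) := by rw [hdiff, map_mul, hwβ, one_mul]
  have h4 : w (β - α) < w (p : L) := by
    have : β - α = (β - 1) - (α - 1) := by ring
    rw [this]
    exact lt_of_le_of_lt (w.map_sub _ _) (max_lt hβ hα)
  rw [h3] at h4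
  exact absurd hle (not_le.mpr h4)

/-- If `v(u - 1) < v(p)^p` then `u` has a `p`-th root `v(p)`-close to `1`, in an algebraically
closed field. -/
theorem exists_pthRoot_close [IsAlgClosed L] {p : ℕ} (hp : p ≠ 0) {u : L}
    (hu : w (u - 1) < w (p : L) ^ p) : ∃ α : L, α ^ p = u ∧ w (α - 1) < w (p : L) := by
  set f : L[X] := X ^ p - C u with hf
  have hmonic : f.Monic := monic_X_pow_sub_C u hp
  have hsplits : f.Splits := IsAlgClosed.splits f
  have hcard : Multiset.card f.roots = p := by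
    rw [splits_iff_card_roots.mp hsplits, hf, natDegree_X_pow_sub_C]
  have heval : f.eval 1 = 1 - u := by simp [hf]
  by_contra hcon
  have hcon' : ∀ β ∈ f.roots, w (p : L) ≤ w (1 - β) := by
    intro β hβ
    by_contra hlt
    apply hcon
    refine ⟨β, ?_, ?_⟩
    · have h0 : f.eval β = 0 := (Polynomial.mem_roots hmonic.ne_zero).mp hβ
      rw [hf] at h0
      simp only [eval_sub, eval_pow, eval_X, eval_C] at h0
      exact sub_eq_zero.mp h0
    · rw [Valuation.map_sub_swap]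
      exact not_le.mp hlt
  have hprod : w (p : L) ^ Multiset.card (Multiset.map (fun a => w (1 - a)) f.roots) ≤
      (Multiset.map (fun a => w (1 - a)) f.roots).prod := by
    apply Multiset.pow_card_le_prod
    intro a ha
    obtain ⟨β, hβ, rfl⟩ := Multiset.mem_map.mp ha
    exact hcon' β hβ
  rw [Multiset.card_map, hcard] at hprod
  have h2 : w (f.eval 1) = (Multiset.map (fun a => w (1 - a)) f.roots).prod := by
    rw [hsplits.eval_eq_prod_roots_of_monic hmonic, map_multiset_prod, Multiset.map_map]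
    rfl
  rw [heval, Valuation.map_sub_swap] at h2
  rw [h2] at hu
  exact absurd hprod (not_le.mpr hu)

end General

section Local

variable {q : ℕ} [Fact q.Prime]

/-- **Hensel for `p`-th powers**, in the crude form `v(u - 1) < v(p)^p`, for every intermediate
field `E ⊇ K_v` of `ℚ̄ / ℚ`. -/
theorem exists_pthRoot_mem {E : IntermediateField ℚ (AlgebraicClosure ℚ)}
    (hE : localField q ≤ E) {p : ℕ} (hp : p ≠ 0) {u : AlgebraicClosure ℚ} (huE : u ∈ E)
    (hu : qVal q (u - 1) < qVal q (p : AlgebraicClosure ℚ) ^ p) :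
    ∃ b ∈ E, b ^ p = u := by
  obtain ⟨α, hαp, hα⟩ := exists_pthRoot_close (qVal q) hp hu
  refine ⟨α, ?_, hαp⟩
  apply mem_of_fixed
  intro σ hσ
  have hσu : σ u = u := hσ ⟨u, huE⟩
  apply pthRoot_unique (qVal q) (p := p)
  · rw [← map_pow, hαp, hσu]
  · have : σ α - 1 = σ (α - 1) := by rw [map_sub, map_one]
    rw [this, qVal_galois q hE hσ]
    exact hα
  · exact hα

/-- Discreteness: an element of `E` of valuation `< 1` has valuation `≤ v(ϖ)`. -/
theorem pf_val_le_of_lt_one {c : ℝ≥0} (hc0 : 0 < c) (hc1 : c < 1) {n : ℤ} (h : c ^ n < 1) :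
    c ^ n ≤ c := by
  have hn : 0 < n := (zpow_lt_one_iff_right_of_lt_one₀ hc0 hc1).mp h
  have := zpow_le_zpow_right_of_le_one₀ hc0 hc1.le (show (1 : ℤ) ≤ n by omega)
  simpa using this

/-- Finitely many representatives of `O_E / ϖ^m`. -/
theorem exists_approx {E : IntermediateField ℚ (AlgebraicClosure ℚ)} (hE : IsLocalFinite q E)
    {ϖ : AlgebraicClosure ℚ} (hϖE : ϖ ∈ E) (hϖ0 : ϖ ≠ 0) (hϖ1 : qVal q ϖ < 1)
    (hϖ : ∀ x ∈ E, x ≠ 0 → ∃ n : ℤ, qVal q x = qVal q ϖ ^ n) (m : ℕ) :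
    ∃ S : Finset (AlgebraicClosure ℚ), (∀ s ∈ S, s ∈ E) ∧
      ∀ x ∈ E, qVal q x ≤ 1 → ∃ s ∈ S, qVal q (x - s) ≤ qVal q ϖ ^ m := by
  classical
  obtain ⟨R, hR, hrep⟩ := exists_residue_reps hE
  have hc0 : 0 < qVal q ϖ := pos_iff_ne_zero.mpr (qVal_ne_zero hϖ0)
  induction m with
  | zero =>
    refine ⟨{0}, ?_, ?_⟩
    · intro s hs
      rw [Finset.mem_singleton] at hs
      rw [hs]
      exact zero_mem E
    · intro x _ hx
      exact ⟨0, Finset.mem_singleton_self 0, by simpa using hx⟩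
  | succ m ih =>
    obtain ⟨S, hSE, hS⟩ := ih
    refine ⟨(S ×ˢ R).image (fun sr => sr.1 + ϖ ^ m * sr.2), ?_, ?_⟩
    · intro s hs
      obtain ⟨⟨s₀, r⟩, hsr, rfl⟩ := Finset.mem_image.mp hs
      rw [Finset.mem_product] at hsr
      exact add_mem (hSE s₀ hsr.1) (mul_mem (pow_mem hϖE m) (hR r hsr.2).1)
    · intro x hxE hx
      obtain ⟨s, hs, hxs⟩ := hS x hxE hx
      set y : AlgebraicClosure ℚ := (x - s) / ϖ ^ m with hy
      have hyE : y ∈ E := div_mem (sub_mem hxE (hSE s hs)) (pow_mem hϖE m)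
      have hpow0 : qVal q ϖ ^ m ≠ 0 := pow_ne_zero m hc0.ne'
      have hy1 : qVal q y ≤ 1 := by
        rw [hy, map_div₀, map_pow]
        exact (div_le_one₀ (pos_iff_ne_zero.mpr hpow0)).mpr hxs
      obtain ⟨r, hr, hyr⟩ := hrep y hyE hy1
      refine ⟨s + ϖ ^ m * r, Finset.mem_image.mpr ⟨(s, r), Finset.mem_product.mpr ⟨hs, hr⟩, rfl⟩,
        ?_⟩
      have hzE : y - r ∈ E := sub_mem hyE (hR r hr).1
      have hz : qVal q (y - r) ≤ qVal q ϖ := by
        by_cases hz0 : y - r = 0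
        · rw [hz0, map_zero]
          exact zero_le
        · obtain ⟨n, hn⟩ := hϖ (y - r) hzE hz0
          rw [hn] at hyr ⊢
          exact pf_val_le_of_lt_one hc0 hϖ1 hyr
      have hxeq : x - (s + ϖ ^ m * r) = ϖ ^ m * (y - r) := by
        rw [hy]
        field_simp
        ring
      rw [hxeq, map_mul, map_pow, pow_succ]
      gcongr

/-- The unit of `E` attached to an element of `ℚ̄` (junk value `1`). -/
noncomputable def pfUnit (E : IntermediateField ℚ (AlgebraicClosure ℚ))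
    (x : AlgebraicClosure ℚ) : Eˣ := by
  classical
  exact if h : x ∈ E ∧ x ≠ 0 then
    Units.mk0 (⟨x, h.1⟩ : E) (fun h0 => h.2 (congrArg Subtype.val h0)) else 1

theorem pfUnit_coe {E : IntermediateField ℚ (AlgebraicClosure ℚ)} {x : AlgebraicClosure ℚ}
    (hxE : x ∈ E) (hx0 : x ≠ 0) : (((pfUnit E x : Eˣ) : E) : AlgebraicClosure ℚ) = x := by
  unfold pfUnit
  rw [dif_pos ⟨hxE, hx0⟩]
  rfl

/-- **[LOC-7]** `Eˣ / (Eˣ)^p` is finite for a finite extension `E` of `K_v`. -/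
theorem powFinite : Fermat.Agent.H78.CFT.PowFiniteStatement := by
  classical
  intro p hpF q hqF E hE
  have hp : p.Prime := hpF.out
  have hp0 : p ≠ 0 := hp.ne_zero
  obtain ⟨ϖ, hϖE, hϖ0, hϖ1, hϖ⟩ := exists_uniformizer hE
  set c : ℝ≥0 := qVal q ϖ with hc
  have hc0 : 0 < c := pos_iff_ne_zero.mpr (qVal_ne_zero hϖ0)
  have hpQ : ((p : ℕ) : AlgebraicClosure ℚ) ≠ 0 := Nat.cast_ne_zero.mpr hp0
  have hvp0 : 0 < qVal q (p : AlgebraicClosure ℚ) ^ p :=
    pow_pos (pos_iff_ne_zero.mpr (qVal_ne_zero hpQ)) p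
  have hvp1 : qVal q (p : AlgebraicClosure ℚ) ^ p ≤ 1 :=
    pow_le_one₀ zero_le (qVal_natCast_le_one q p)
  obtain ⟨m, hm⟩ := NNReal.exists_pow_lt_of_lt_one hvp0 hϖ1
  obtain ⟨S, hSE, hS⟩ := exists_approx hE hϖE hϖ0 hϖ1 hϖ m
  refine ⟨(Finset.range p ×ˢ S).image (fun js => pfUnit E (ϖ ^ js.1 * js.2)), ?_⟩
  intro a
  have haE : ((a : E) : AlgebraicClosure ℚ) ∈ E := (a : E).2
  have ha0 : ((a : E) : AlgebraicClosure ℚ) ≠ 0 := by
    intro h
    exact a.ne_zero (Subtype.ext h)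
  obtain ⟨n, hn⟩ := hϖ _ haE ha0
  -- `n = j + p * k`
  set k : ℤ := n / (p : ℤ) with hk
  set j : ℕ := (n % (p : ℤ)).toNat with hj
  have hpZ : (0 : ℤ) < (p : ℤ) := by exact_mod_cast hp.pos
  have hjn : (j : ℤ) = n % (p : ℤ) := Int.toNat_of_nonneg (Int.emod_nonneg n hpZ.ne')
  have hjp : j < p := by
    have := Int.emod_lt_of_pos n hpZ
    omega
  have hnjk : n = (j : ℤ) + (p : ℤ) * k := by
    rw [hjn, hk]
    exact (Int.emod_add_mul_ediv n p).symm
  -- the unit part
  set u : AlgebraicClosure ℚ := ((a : E) : AlgebraicClosure ℚ) / ϖ ^ n with hu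
  have huE : u ∈ E := div_mem haE (zpow_mem hϖE n)
  have hwu : qVal q u = 1 := by
    rw [hu, map_div₀, map_zpow₀, hn]
    exact div_self (zpow_ne_zero n hc0.ne')
  obtain ⟨s, hs, hus⟩ := hS u huE hwu.le
  have hus' : qVal q (u - s) < qVal q (p : AlgebraicClosure ℚ) ^ p := lt_of_le_of_lt hus hm
  have hus1 : qVal q (u - s) < 1 := lt_of_lt_of_le hus' hvp1
  have hws : qVal q s = 1 := by
    have h1 : s = u + -(u - s) := by ring
    rw [h1, Valuation.map_add_eq_of_lt_left _ (by rw [Valuation.map_neg, hwu]; exact hus1), hwu]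
  have hs0 : s ≠ 0 := by
    intro h0
    rw [h0, map_zero] at hws
    exact zero_ne_one hws
  have hsE : s ∈ E := hSE s hs
  -- `u / s` is a `p`-th power
  have ht : qVal q (u / s - 1) < qVal q (p : AlgebraicClosure ℚ) ^ p := by
    have : u / s - 1 = (u - s) / s := by
      field_simp
    rw [this, map_div₀, hws, div_one]
    exact hus'
  obtain ⟨b, hbE, hb⟩ := exists_pthRoot_mem hE.le hp0 (div_mem huE hsE) ht
  have hu0 : u ≠ 0 := by
    intro h0
    rw [h0, map_zero] at hwu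
    exact zero_ne_one hwu
  have hb0 : b ≠ 0 := by
    intro h0
    rw [h0, zero_pow hp0] at hb
    exact div_ne_zero hu0 hs0 hb.symm
  -- assemble
  have hr0 : ϖ ^ j * s ≠ 0 := mul_ne_zero (pow_ne_zero j hϖ0) hs0
  have hrE : ϖ ^ j * s ∈ E := mul_mem (pow_mem hϖE j) hsE
  have hB0 : ϖ ^ k * b ≠ 0 := mul_ne_zero (zpow_ne_zero k hϖ0) hb0
  have hBE : ϖ ^ k * b ∈ E := mul_mem (zpow_mem hϖE k) hbE
  refine ⟨pfUnit E (ϖ ^ j * s), Finset.mem_image.mpr ⟨(j, s),
    Finset.mem_product.mpr ⟨Finset.mem_range.mpr hjp, hs⟩, rfl⟩, pfUnit E (ϖ ^ k * b), ?_⟩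
  apply Units.ext
  apply Subtype.ext
  rw [Units.val_mul, Units.val_pow_eq_pow_val]
  change ((a : E) : AlgebraicClosure ℚ) =
    (((pfUnit E (ϖ ^ j * s) : Eˣ) : E) : AlgebraicClosure ℚ) *
      ((((pfUnit E (ϖ ^ k * b) : Eˣ) : E) : AlgebraicClosure ℚ)) ^ p
  rw [pfUnit_coe hrE hr0, pfUnit_coe hBE hB0]
  have h1 : ((a : E) : AlgebraicClosure ℚ) = ϖ ^ n * u := by
    rw [hu]
    field_simp
  have h2 : u = s * b ^ p := by
    rw [hb]
    field_simp
  have h3 : ϖ ^ n = ϖ ^ j * (ϖ ^ k) ^ p := by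
    rw [hnjk, zpow_add₀ hϖ0, zpow_natCast, zpow_mul, zpow_natCast]
    congr 1
    rw [← zpow_natCast, ← zpow_natCast (ϖ ^ k), ← zpow_mul, ← zpow_mul, mul_comm]
  rw [h1, h2, h3]
  ring

end Local

end Fermat.Agent.H97
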