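import Mathlib

/-!
# Transport of adic valuations along ring automorphisms

For a Dedekind domain `B` with fraction field `L`, a ring automorphism `e` of `B` and a compatible
endomorphism `E` of `L`, the valuation of the prime `e⁻¹(w)` is the valuation of `w` composed
with `E`.
-/

set_option autoImplicit false

namespace Fermat.Agent.H97

open IsDedekindDomain

section Transport

variable {B : Type*} [CommRing B] [IsDedekindDomain B]

/-- Pull back a height one prime along a ring automorphism. -/
def primeComap (e : B ≃+* B) (w : HeightOneSpectrum B) : HeightOneSpectrum B where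
  asIdeal := w.asIdeal.comap e
  isPrime := Ideal.comap_isPrime e w.asIdeal
  ne_bot := by
    intro h
    apply w.ne_bot
    rw [eq_bot_iff]
    intro x hx
    have : e.symm x ∈ w.asIdeal.comap e := by
      rw [Ideal.mem_comap]
      simpa using hx
    rw [h, Ideal.mem_bot] at this
    rw [Ideal.mem_bot]
    simpa using congrArg e this

omit [IsDedekindDomain B] in
theorem primeComap_asIdeal (e : B ≃+* B) (w : HeightOneSpectrum B) :
    (primeComap e w).asIdeal = w.asIdeal.comap e := rfl

omit [IsDedekindDomain B] in
theorem mem_primeComap_pow (e : B ≃+* B) (w : HeightOneSpectrum B) (n : ℕ) (r : B) :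
    r ∈ (primeComap e w).asIdeal ^ n ↔ e r ∈ w.asIdeal ^ n := by
  have h : (primeComap e w).asIdeal = w.asIdeal.map e.symm := by
    rw [primeComap_asIdeal]
    exact (Ideal.map_symm e).symm
  rw [h, ← Ideal.map_pow, Ideal.map_symm, Ideal.mem_comap]

/-- Two elements of `ℤᵐ⁰` which are `≤ 1`, nonzero, and satisfy the same inequalities
`≤ exp (-n)` are equal. -/
theorem withZero_eq_of_le_exp_iff {a b : WithZero (Multiplicative ℤ)} (ha : a ≠ 0) (hb : b ≠ 0)
    (ha1 : a ≤ 1) (hb1 : b ≤ 1)
    (h : ∀ n : ℕ, a ≤ WithZero.exp (-(n : ℤ)) ↔ b ≤ WithZero.exp (-(n : ℤ))) : a = b := by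
  obtain ⟨m, rfl⟩ : ∃ m : ℤ, a = WithZero.exp m := ⟨WithZero.log a, (WithZero.exp_log ha).symm⟩
  obtain ⟨k, rfl⟩ : ∃ k : ℤ, b = WithZero.exp k := ⟨WithZero.log b, (WithZero.exp_log hb).symm⟩
  have hm : m ≤ 0 := by rwa [← WithZero.exp_zero, WithZero.exp_le_exp] at ha1
  have hk : k ≤ 0 := by rwa [← WithZero.exp_zero, WithZero.exp_le_exp] at hb1
  have h1 := (h (-m).toNat).mp (by rw [WithZero.exp_le_exp]; omega)
  have h2 := (h (-k).toNat).mpr (by rw [WithZero.exp_le_exp]; omega)
  rw [WithZero.exp_le_exp] at h1 h2
  congr 1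
  omega

theorem intValuation_primeComap (e : B ≃+* B) (w : HeightOneSpectrum B) (r : B) :
    (primeComap e w).intValuation r = w.intValuation (e r) := by
  rcases eq_or_ne r 0 with rfl | hr
  · simp
  have her : e r ≠ 0 := by simpa using hr
  refine withZero_eq_of_le_exp_iff ((primeComap e w).intValuation_ne_zero r hr)
    (w.intValuation_ne_zero (e r) her) ((primeComap e w).intValuation_le_one r)
    (w.intValuation_le_one (e r)) fun n => ?_
  rw [HeightOneSpectrum.intValuation_le_pow_iff_mem, HeightOneSpectrum.intValuation_le_pow_iff_mem,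
    mem_primeComap_pow]

variable {L : Type*} [Field L] [Algebra B L] [IsFractionRing B L]

theorem valuation_primeComap (e : B ≃+* B) (E : L →+* L)
    (hE : ∀ b : B, E (algebraMap B L b) = algebraMap B L (e b))
    (w : HeightOneSpectrum B) (z : L) :
    (primeComap e w).valuation L z = w.valuation L (E z) := by
  obtain ⟨a, b, hb, rfl⟩ := IsFractionRing.div_surjective (A := B) z
  rw [map_div₀, map_div₀, map_div₀, hE, hE, HeightOneSpectrum.valuation_of_algebraMap,
    HeightOneSpectrum.valuation_of_algebraMap, HeightOneSpectrum.valuation_of_algebraMap,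
    HeightOneSpectrum.valuation_of_algebraMap, intValuation_primeComap, intValuation_primeComap]

end Transport

end Fermat.Agent.H97
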