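import Mathlib
import Fermat.Agent.H43.Cft.G1Leaves
import Fermat.Agent.H97.Cft.Hilbert90Cyclic
import Fermat.Agent.H97.Cft.ValuationTransport

/-!
# P-CFT / G1-H1: `H¹(Gal(L/K), O_{L,T}^×) = 0`

`Fermat.Agent.H97.unitsH1 : Fermat.Agent.H43.Cft.UnitsH1Statement`.

Hilbert 90 gives `x = σ y₀ / y₀`; the valuations of `y₀` are constant on the Galois orbits of
primes outside `T` (the Galois group is transitive on the primes above a given prime), and
`Cl_T(K) = 0` together with the absence of ramification outside `T` lets us correct `y₀` by an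
element of `Kˣ` to an `S`-unit.
-/

set_option autoImplicit false
set_option linter.unusedSectionVars false

namespace Fermat.Agent.H97

open NumberField IsDedekindDomain Fermat.Agent.H43.Cft
open scoped Pointwise

section GalPrimes

variable {K L : Type*} [Field K] [Field L] [Algebra K L]

/-- The ring automorphism of `𝓞 L` induced by `τ ∈ Gal(L/K)`. -/
noncomputable def galInt (τ : L ≃ₐ[K] L) : 𝓞 L ≃+* 𝓞 L :=
  MulSemiringAction.toRingEquiv (L ≃ₐ[K] L) (𝓞 L) τ

theorem galInt_apply (τ : L ≃ₐ[K] L) (b : 𝓞 L) : galInt τ b = τ • b := rfl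

theorem algebraMap_galInt (τ : L ≃ₐ[K] L) (b : 𝓞 L) :
    algebraMap (𝓞 L) L (galInt τ b) = τ (algebraMap (𝓞 L) L b) := rfl

variable [NumberField K] [NumberField L]

theorem galInt_algebraMap (τ : L ≃ₐ[K] L) (a : 𝓞 K) :
    galInt τ (algebraMap (𝓞 K) (𝓞 L) a) = algebraMap (𝓞 K) (𝓞 L) a := by
  apply RingOfIntegers.ext
  show τ (algebraMap (𝓞 L) L (algebraMap (𝓞 K) (𝓞 L) a)) = _
  rw [← IsScalarTower.algebraMap_apply (𝓞 K) (𝓞 L) L, IsScalarTower.algebraMap_apply (𝓞 K) K L,
    τ.commutes]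
  exact (IsScalarTower.algebraMap_apply (𝓞 K) K L a).symm.trans
    (IsScalarTower.algebraMap_apply (𝓞 K) (𝓞 L) L a)

theorem valuation_galPrime (τ : L ≃ₐ[K] L) (w : HeightOneSpectrum (𝓞 L)) (z : L) :
    (primeComap (galInt τ) w).valuation L z = w.valuation L (τ z) :=
  valuation_primeComap (galInt τ) (τ : L →+* L) (fun b => (algebraMap_galInt τ b).symm) w z

theorem under_galPrime (τ : L ≃ₐ[K] L) (w : HeightOneSpectrum (𝓞 L)) :
    (primeComap (galInt τ) w).under (𝓞 K) = w.under (𝓞 K) := by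
  apply HeightOneSpectrum.ext
  ext a
  show galInt τ (algebraMap (𝓞 K) (𝓞 L) a) ∈ w.asIdeal ↔ algebraMap (𝓞 K) (𝓞 L) a ∈ w.asIdeal
  rw [galInt_algebraMap]

theorem exists_galPrime_of_under_eq [IsGalois K L] (w w' : HeightOneSpectrum (𝓞 L))
    (h : w.under (𝓞 K) = w'.under (𝓞 K)) :
    ∃ τ : L ≃ₐ[K] L, w' = primeComap (galInt τ) w := by
  have hG : IsGaloisGroup (L ≃ₐ[K] L) (𝓞 K) (𝓞 L) :=
    IsGaloisGroup.of_isFractionRing (L ≃ₐ[K] L) (𝓞 K) (𝓞 L) K L
  have hP : w.asIdeal.LiesOver (w.under (𝓞 K)).asIdeal := ⟨rfl⟩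
  have hQ : w'.asIdeal.LiesOver (w.under (𝓞 K)).asIdeal := ⟨by rw [h]; rfl⟩
  obtain ⟨τ, hτ⟩ := Ideal.exists_smul_eq_of_isGaloisGroup (w.under (𝓞 K)).asIdeal
    w.asIdeal w'.asIdeal (L ≃ₐ[K] L)
  refine ⟨τ⁻¹, HeightOneSpectrum.ext ?_⟩
  rw [primeComap_asIdeal, ← hτ]
  ext b
  rw [Ideal.mem_comap, Ideal.mem_pointwise_smul_iff_inv_smul_mem]
  rfl

end GalPrimes

section Main

universe u v

variable {K : Type u} [Field K] [NumberField K] {L : Type v} [Field L] [NumberField L]
  [Algebra K L]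

theorem mem_sUnits_iff (S : Finset (HeightOneSpectrum (𝓞 L))) (x : Lˣ) :
    x ∈ SUnits L S ↔ ∀ w : HeightOneSpectrum (𝓞 L), w ∉ S → w.valuation L (x : L) = 1 := by
  constructor
  · intro h w hw
    exact h w (by simpa using hw)
  · intro h w hw
    exact h w (by simpa using hw)

theorem exists_prime_above (v : HeightOneSpectrum (𝓞 K)) :
    ∃ w : HeightOneSpectrum (𝓞 L), w.under (𝓞 K) = v := by
  obtain ⟨P, hP, hPv⟩ := v.asIdeal.exists_ideal_over_prime_of_isIntegral_of_isDomain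
    (S := 𝓞 L) (by simp)
  refine ⟨⟨P, hP, ?_⟩, HeightOneSpectrum.ext hPv⟩
  rintro rfl
  apply v.ne_bot
  rw [← hPv]
  exact Ideal.comap_bot_of_injective _ (FaithfulSMul.algebraMap_injective (𝓞 K) (𝓞 L))

/-- Valuation of an element of `K` at an unramified prime of `L`. -/
theorem valuation_algebraMap_of_unram (w : HeightOneSpectrum (𝓞 L))
    (hw : w.asIdeal.ramificationIdx (𝓞 K) = 1) (a : K) :
    w.valuation L (algebraMap K L a) = (w.under (𝓞 K)).valuation K a := by
  have hP : w.asIdeal.LiesOver (w.under (𝓞 K)).asIdeal := ⟨rfl⟩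
  have h := HeightOneSpectrum.valuation_liesOver L (w.under (𝓞 K)) w a
  rw [Ideal.ramificationIdx'_eq_ramificationIdx (w.under (𝓞 K)).asIdeal w.asIdeal
    (w.under (𝓞 K)).ne_bot, hw, pow_one] at h
  exact h.symm

/-- The valuation of a nonzero element is `1` outside a finite set of primes. -/
theorem finite_valuation_ne_one (y : Lˣ) :
    {w : HeightOneSpectrum (𝓞 L) | w.valuation L (y : L) ≠ 1}.Finite := by
  have h1 := HeightOneSpectrum.Support.finite (𝓞 L) (y : L)
  have h2 := HeightOneSpectrum.Support.finite (𝓞 L) ((y⁻¹ : Lˣ) : L)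
  refine (h1.union h2).subset fun w hw => ?_
  simp only [Set.mem_ofPred_eq] at hw
  rcases lt_or_gt_of_ne hw with h | h
  · right
    show 1 < w.valuation L ((y⁻¹ : Lˣ) : L)
    rw [Units.val_inv_eq_inv_val, map_inv₀]
    exact (one_lt_inv₀ (by simp [zero_lt_iff])).mpr h
  · left
    exact h

/-- **G1-H1**: `H¹(Gal(L/K), O_{L,T}^×) = 0` in the cyclic form. -/
theorem unitsH1 : UnitsH1Statement.{u, v} := by
  intro K _ _ L _ _ _ p T hCS σ hσ x hxS hxN
  classical
  have hGal : IsGalois K L := hCS.galois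
  obtain ⟨y0, hy0⟩ := hilbert90_cyclic σ hσ x hxN
  have hy0ne : ∀ w : HeightOneSpectrum (𝓞 L), w.valuation L (y0 : L) ≠ 0 := fun w => by simp
  rw [mem_sUnits_iff] at hxS
  -- invariance of the valuations of `y0` under `σ` outside `T`
  have hinv1 : ∀ w : HeightOneSpectrum (𝓞 L), w.under (𝓞 K) ∉ T →
      w.valuation L (σ (y0 : L)) = w.valuation L (y0 : L) := by
    intro w hw
    have h1 := hxS w (by rwa [mem_primesAbove])
    rw [hy0, map_div₀] at h1
    exact (div_eq_one_iff_eq (hy0ne w)).mp h1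
  have hinvpow : ∀ (k : ℕ) (w : HeightOneSpectrum (𝓞 L)), w.under (𝓞 K) ∉ T →
      w.valuation L ((σ ^ k) (y0 : L)) = w.valuation L (y0 : L) := by
    intro k
    induction k with
    | zero => intro w _; rfl
    | succ k ih =>
      intro w hw
      have h1 : (σ ^ (k + 1)) (y0 : L) = (σ ^ k) (σ (y0 : L)) := by
        rw [pow_succ]; rfl
      rw [h1, ← valuation_galPrime (σ ^ k) w, hinv1 _ (by rwa [under_galPrime]),
        valuation_galPrime, ih w hw]
  have hinv : ∀ (τ : L ≃ₐ[K] L) (w : HeightOneSpectrum (𝓞 L)), w.under (𝓞 K) ∉ T →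
      w.valuation L (τ (y0 : L)) = w.valuation L (y0 : L) := by
    intro τ w hw
    have hτ := hσ τ
    rw [← mem_powers_iff_mem_zpowers, Submonoid.mem_powers_iff] at hτ
    obtain ⟨k, rfl⟩ := hτ
    exact hinvpow k w hw
  have hconst : ∀ w w' : HeightOneSpectrum (𝓞 L), w.under (𝓞 K) = w'.under (𝓞 K) →
      w.under (𝓞 K) ∉ T → w'.valuation L (y0 : L) = w.valuation L (y0 : L) := by
    intro w w' h hw
    obtain ⟨τ, rfl⟩ := exists_galPrime_of_under_eq w w' h
    rw [valuation_galPrime, hinv τ w hw]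
  -- the exponents and the generators
  choose above habove using fun v : HeightOneSpectrum (𝓞 K) => exists_prime_above (L := L) v
  set n : HeightOneSpectrum (𝓞 K) → ℤ := fun v =>
    WithZero.log ((above v).valuation L (y0 : L)) with hn
  have hval : ∀ w : HeightOneSpectrum (𝓞 L), w.under (𝓞 K) ∉ T →
      w.valuation L (y0 : L) = WithZero.exp (n (w.under (𝓞 K))) := by
    intro w hw
    rw [hn]
    simp only
    rw [WithZero.exp_log (hy0ne _)]
    exact hconst (above (w.under (𝓞 K))) w (habove _) (by rwa [habove])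
  have hcl := hCS.cl
  let π : HeightOneSpectrum (𝓞 K) → Kˣ := fun v =>
    if h : v ∈ T then 1 else (hcl v h).choose
  have hπ1 : ∀ v, v ∉ T → v.valuation K (π v : K) = WithZero.exp (-1 : ℤ) := by
    intro v hv
    simp only [π, dif_neg hv]
    exact (hcl v hv).choose_spec.1
  have hπ2 : ∀ v v0 : HeightOneSpectrum (𝓞 K), v0 ∉ T → v0 ≠ v →
      v0.valuation K (π v : K) = 1 := by
    intro v v0 hv0 hne
    by_cases hv : v ∈ T
    · simp [π, dif_pos hv]
    · simp only [π, dif_neg hv]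
      exact (hcl v hv).choose_spec.2 v0 hv0 hne
  -- the finite support
  let V : Finset (HeightOneSpectrum (𝓞 K)) :=
    (finite_valuation_ne_one y0).toFinset.image (fun w => w.under (𝓞 K))
  have hV : ∀ v : HeightOneSpectrum (𝓞 K), v ∉ V → n v = 0 := by
    intro v hv
    rw [hn]
    simp only
    by_contra hne
    apply hv
    rw [Finset.mem_image]
    refine ⟨above v, ?_, habove v⟩
    rw [Set.Finite.mem_toFinset, Set.mem_ofPred_eq]
    intro h1
    rw [h1] at hne
    simp at hne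
  let P : Kˣ := ∏ v ∈ V, π v ^ n v
  have hP : ∀ v0 : HeightOneSpectrum (𝓞 K), v0 ∉ T →
      v0.valuation K (P : K) = WithZero.exp (-(n v0)) := by
    intro v0 hv0
    have h1 : v0.valuation K (P : K) = ∏ v ∈ V, (v0.valuation K (π v : K)) ^ n v := by
      simp only [P, Units.coe_prod, map_prod, Units.val_zpow_eq_zpow_val, map_zpow₀]
    rw [h1, Finset.prod_eq_single v0]
    · rw [hπ1 v0 hv0, ← WithZero.exp_zsmul]
      congr 1
      simp
    · intro v _ hne
      rw [hπ2 v v0 hv0 (Ne.symm hne), one_zpow]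
    · intro hv0V
      rw [hV v0 hv0V, zpow_zero]
  refine ⟨y0 * Units.map (algebraMap K L : K →* L) P, ?_, ?_⟩
  · rw [mem_sUnits_iff]
    intro w hw
    rw [mem_primesAbove] at hw
    rw [Units.val_mul, map_mul, Units.coe_map, MonoidHom.coe_coe,
      valuation_algebraMap_of_unram w (hCS.unram w hw), hP _ hw, hval w hw, ← WithZero.exp_add,
      add_neg_cancel, WithZero.exp_zero]
  · rw [hy0, Units.val_mul, Units.coe_map, MonoidHom.coe_coe, map_mul, σ.commutes]
    have h1 : (algebraMap K L) (P : K) ≠ 0 := by simp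
    have h2 : (y0 : L) ≠ 0 := y0.ne_zero
    field_simp

end Main

end Fermat.Agent.H97
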