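/-
P-CFT / LOCAL row LOC-CARD (helper97), part A: index bookkeeping for the `p`-th power map
(Mathlib only).

* `pc_index_range_eq`: for an endomorphism `φ` of a commutative group and a finite-index subgroup
  `V` meeting `ker φ` trivially, `[G : φ G] = #ker φ * [V : φ V]`;
* `pc_index_pow_range`: for a surjection `ord : G → ℤ`, `[G : G^p] = p * [U : U^p]`,
  `U = ker ord`.
-/
import Mathlib

set_option autoImplicit false

namespace Fermat.Agent.H97

section IndexRange

variable {G : Type*} [CommGroup G]

/-- `[G : φ G] = #ker φ * [V : φ V]` for a finite-index subgroup `V` with `V ∩ ker φ = 1`. -/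
theorem pc_index_range_eq (φ : G →* G) (V : Subgroup G) (hV : V.index ≠ 0)
    (hdisj : Disjoint V φ.ker) (hstab : V.map φ ≤ V) :
    φ.range.index = Nat.card φ.ker * (V.map φ).relIndex V := by
  have h1 : (V.map φ).index = (V ⊔ φ.ker).index * φ.range.index := Subgroup.index_map V φ
  have h2 : (V.map φ).relIndex V * V.index = (V.map φ).index :=
    Subgroup.relIndex_mul_index hstab
  have h3 : V.relIndex (V ⊔ φ.ker) * (V ⊔ φ.ker).index = V.index :=
    Subgroup.relIndex_mul_index le_sup_left
  have h4 : V.relIndex (V ⊔ φ.ker) = Nat.card φ.ker := by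
    rw [Subgroup.relIndex_sup_left, Subgroup.relIndex,
      Subgroup.subgroupOf_eq_bot.mpr hdisj, Subgroup.index_bot]
  have h5 : (V ⊔ φ.ker).index ≠ 0 := by
    intro h0
    rw [h0, mul_zero] at h3
    exact hV h3.symm
  rw [h4] at h3
  have h6 : (V ⊔ φ.ker).index * φ.range.index =
      (V ⊔ φ.ker).index * (Nat.card φ.ker * (V.map φ).relIndex V) := by
    rw [← h1, ← h2, ← h3]
    ring
  exact Nat.eq_of_mul_eq_mul_left (Nat.pos_of_ne_zero h5) h6

end IndexRange

section Ord

variable {G : Type*} [CommGroup G]

/-- The index of the `p`-th powers in `Multiplicative ℤ`. -/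
theorem pc_index_pow_int (p : ℕ) :
    (powMonoidHom p : Multiplicative ℤ →* Multiplicative ℤ).range.index = p := by
  have h : (powMonoidHom p : Multiplicative ℤ →* Multiplicative ℤ).range =
      (AddSubgroup.zmultiples (p : ℤ)).toSubgroup := by
    ext x
    rw [MonoidHom.mem_range]
    constructor
    · rintro ⟨y, rfl⟩
      change (Multiplicative.toAdd (y ^ p)) ∈ AddSubgroup.zmultiples (p : ℤ)
      rw [AddSubgroup.mem_zmultiples_iff]
      exact ⟨Multiplicative.toAdd y, by simp [mul_comm]⟩
    · intro hx
      change (Multiplicative.toAdd x) ∈ AddSubgroup.zmultiples (p : ℤ) at hx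
      rw [AddSubgroup.mem_zmultiples_iff] at hx
      obtain ⟨k, hk⟩ := hx
      refine ⟨Multiplicative.ofAdd k, ?_⟩
      apply Multiplicative.toAdd.injective
      simp only [powMonoidHom_apply, toAdd_pow, toAdd_ofAdd]
      rw [← hk]
      simp [mul_comm]
  rw [h]
  change (AddSubgroup.zmultiples (p : ℤ)).index = p
  rw [Int.index_zmultiples]
  simp

/-- `[G : G^p] = p * [U : U^p]` for `U` the kernel of a surjection `G → ℤ`. -/
theorem pc_index_pow_range (ord : G →* Multiplicative ℤ) (hord : Function.Surjective ord)
    (p : ℕ) (hp : p ≠ 0) :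
    (powMonoidHom p : G →* G).range.index =
      p * (powMonoidHom p : ord.ker →* ord.ker).range.index := by
  set P : Subgroup G := (powMonoidHom p : G →* G).range with hP
  set U : Subgroup G := ord.ker with hU
  -- `P ⊔ U` is the preimage of the `p`-th powers
  have hsup : P ⊔ U =
      ((powMonoidHom p : Multiplicative ℤ →* Multiplicative ℤ).range).comap ord := by
    apply le_antisymm
    · apply sup_le
      · rintro _ ⟨b, rfl⟩
        rw [Subgroup.mem_comap]
        exact ⟨ord b, by simp⟩
      · intro u hu
        rw [Subgroup.mem_comap]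
        rw [hU, MonoidHom.mem_ker] at hu
        rw [hu]
        exact Subgroup.one_mem _
    · intro a ha
      rw [Subgroup.mem_comap] at ha
      obtain ⟨k, hk⟩ := ha
      obtain ⟨g, hg⟩ := hord k
      have h1 : a = g ^ p * (a * (g ^ p)⁻¹) := by
        rw [mul_comm a, ← mul_assoc, mul_inv_cancel, one_mul]
      rw [h1]
      apply Subgroup.mul_mem
      · exact Subgroup.mem_sup_left ⟨g, rfl⟩
      · apply Subgroup.mem_sup_right
        rw [hU, MonoidHom.mem_ker, map_mul, map_inv, map_pow, hg]
        simp only [powMonoidHom_apply] at hk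
        rw [hk, mul_inv_cancel]
  have h1 : (P ⊔ U).index = p := by
    rw [hsup, Subgroup.index_comap_of_surjective _ hord, pc_index_pow_int]
  have h2 : P.relIndex (P ⊔ U) * (P ⊔ U).index = P.index :=
    Subgroup.relIndex_mul_index le_sup_left
  have h3 : P.relIndex (P ⊔ U) = P.relIndex U := Subgroup.relIndex_sup_left U P
  have h4 : P.subgroupOf U = (powMonoidHom p : ord.ker →* ord.ker).range := by
    ext x
    rw [Subgroup.mem_subgroupOf, MonoidHom.mem_range]
    constructor
    · rintro ⟨b, hb⟩
      have hbU : b ∈ ord.ker := by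
        rw [MonoidHom.mem_ker]
        have hx : ord (x : G) = 1 := MonoidHom.mem_ker.mp x.2
        rw [← hb] at hx
        simp only [powMonoidHom_apply, map_pow] at hx
        have h5 : p • Multiplicative.toAdd (ord b) = 0 := by
          have := congrArg Multiplicative.toAdd hx
          simpa using this
        have h6 : Multiplicative.toAdd (ord b) = 0 := by
          rcases smul_eq_zero.mp h5 with h | h
          · exact absurd h hp
          · exact h
        exact Multiplicative.toAdd.injective h6
      refine ⟨⟨b, hbU⟩, ?_⟩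
      apply Subtype.ext
      exact hb
    · rintro ⟨b, rfl⟩
      exact ⟨(b : G), rfl⟩
  rw [← h2, h3, h1, Subgroup.relIndex, h4, mul_comm]

end Ord

end Fermat.Agent.H97
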