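/-
P-CFT / LOCAL row LOC-CARD (helper97), part B: the order of `Eˣ / (Eˣ)^p` for a finite
extension `E` of the henselian local field `K_v ⊆ ℚ̄` containing `ζ_p`:

  `[Eˣ : (Eˣ)^p] = p * p * [O_E : p O_E]`        (`pc_index_pow`).

No logarithm (the field is henselian, not complete): for `t < v(p)^(p-1)` the `p`-th power map
`U_t → U_{t v(p)}` is bijective (`U_t = {a : v(a - 1) ≤ t}`).
-/
import Fermat.Agent.H97.Cft.PowFinite
import Fermat.Agent.H97.Cft.PowCardGroup

set_option autoImplicit false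

open Polynomial IntermediateField

open scoped NNReal

namespace Fermat.Agent.H97

open Fermat.Agent.H81.Local

section General

variable {L : Type*} [Field L] {Γ₀ : Type*} [LinearOrderedCommGroupWithZero Γ₀]
  (w : Valuation L Γ₀)

/-- `v(n) ≤ 1` for a natural number `n`. -/
theorem pc_val_natCast_le_one (n : ℕ) : w (n : L) ≤ 1 := by
  have := Valuation.map_sum_le w (s := Finset.range n) (f := fun _ => (1 : L)) (g := 1)
    (fun _ _ => by rw [map_one])
  simpa using this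

/-- `v(b^p - 1) = v(p) v(b - 1)` as soon as `v(b - 1) < v(p)`. -/
theorem val_pow_sub_one {p : ℕ} {b : L} (hb : w (b - 1) < w (p : L)) :
    w (b ^ p - 1) = w (p : L) * w (b - 1) := by
  have hp1 : w (p : L) ≤ 1 := pc_val_natCast_le_one w p
  have hx1 : w (b - 1) ≤ 1 := hb.le.trans hp1
  obtain ⟨k, hk⟩ := Polynomial.binomExpansion (X ^ p : w.integer[X]) 1 ⟨b - 1, hx1⟩
  have hk' := congrArg (fun z : w.integer => (z : L)) hk
  simp only [eval_pow, eval_X, derivative_X_pow, eval_mul, eval_C, one_pow, mul_one] at hk'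
  push_cast at hk'
  have h1 : b ^ p - 1 = (b - 1) * ((p : L) + (k : L) * (b - 1)) := by
    have h0 : (1 + (b - 1)) = b := by ring
    rw [h0] at hk'
    rw [hk']
    ring
  have h2 : w ((k : L) * (b - 1)) < w (p : L) := by
    rw [map_mul]
    calc w (k : L) * w (b - 1) ≤ 1 * w (b - 1) := by gcongr; exact k.2
      _ = w (b - 1) := one_mul _
      _ < w (p : L) := hb
  rw [h1, map_mul, Valuation.map_add_eq_of_lt_left w h2, mul_comm]

end General

section Local

variable (q : ℕ) [Fact q.Prime] (E : IntermediateField ℚ (AlgebraicClosure ℚ))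

/-- The valuation of a unit of `E`. -/
noncomputable def pcVal (a : Eˣ) : ℝ≥0 := qVal q (((a : Eˣ) : E) : AlgebraicClosure ℚ)

theorem pcVal_def (a : Eˣ) : pcVal q E a = qVal q (((a : Eˣ) : E) : AlgebraicClosure ℚ) := rfl

theorem pcVal_ne_zero (a : Eˣ) : pcVal q E a ≠ 0 := by
  rw [pcVal_def]
  apply qVal_ne_zero
  intro h
  exact a.ne_zero (Subtype.ext h)

theorem pcVal_one : pcVal q E 1 = 1 := by
  rw [pcVal_def]
  simp

theorem pcVal_mul (a b : Eˣ) : pcVal q E (a * b) = pcVal q E a * pcVal q E b := by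
  rw [pcVal_def, pcVal_def, pcVal_def, Units.val_mul, MulMemClass.coe_mul, map_mul]

theorem pcVal_inv (a : Eˣ) : pcVal q E a⁻¹ = (pcVal q E a)⁻¹ := by
  have h := pcVal_mul q E a a⁻¹
  rw [mul_inv_cancel, pcVal_one] at h
  exact eq_inv_of_mul_eq_one_right h.symm

theorem pcVal_pow (a : Eˣ) (n : ℕ) : pcVal q E (a ^ n) = pcVal q E a ^ n := by
  rw [pcVal_def, pcVal_def, Units.val_pow_eq_pow_val, SubmonoidClass.coe_pow, map_pow]

/-- The distance to `1` of a unit of `E`. -/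
noncomputable def pcDist (a : Eˣ) : ℝ≥0 := qVal q ((((a : Eˣ) : E) : AlgebraicClosure ℚ) - 1)

theorem pcDist_def (a : Eˣ) :
    pcDist q E a = qVal q ((((a : Eˣ) : E) : AlgebraicClosure ℚ) - 1) := rfl

theorem pcVal_eq_one_of_dist {a : Eˣ} (h : pcDist q E a < 1) : pcVal q E a = 1 := by
  rw [pcVal_def]
  rw [pcDist_def] at h
  have h2 := Valuation.map_one_add_of_lt (qVal q) h
  rwa [add_sub_cancel] at h2

/-- The principal units `U_t = {a : v(a - 1) ≤ t}`, `t < 1`. -/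
noncomputable def pcU (t : ℝ≥0) (ht : t < 1) : Subgroup Eˣ where
  carrier := {a | pcDist q E a ≤ t}
  one_mem' := by
    change pcDist q E 1 ≤ t
    rw [pcDist_def]
    simp
  mul_mem' := by
    intro a b ha hb
    change pcDist q E a ≤ t at ha
    change pcDist q E b ≤ t at hb
    change pcDist q E (a * b) ≤ t
    have hvb : pcVal q E b = 1 := pcVal_eq_one_of_dist q E (lt_of_le_of_lt hb ht)
    rw [pcDist_def] at ha hb ⊢
    rw [pcVal_def] at hvb
    have h1 : (((a * b : Eˣ) : E) : AlgebraicClosure ℚ) - 1 =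
        ((((a : Eˣ) : E) : AlgebraicClosure ℚ) - 1) * (((b : Eˣ) : E) : AlgebraicClosure ℚ)
          + ((((b : Eˣ) : E) : AlgebraicClosure ℚ) - 1) := by
      rw [Units.val_mul, MulMemClass.coe_mul]
      ring
    rw [h1]
    refine le_trans ((qVal q).map_add _ _) (max_le ?_ hb)
    rw [map_mul, hvb, mul_one]
    exact ha
  inv_mem' := by
    intro a ha
    change pcDist q E a ≤ t at ha
    change pcDist q E a⁻¹ ≤ t
    have hva : pcVal q E a = 1 := pcVal_eq_one_of_dist q E (lt_of_le_of_lt ha ht)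
    have hva' : pcVal q E a⁻¹ = 1 := by rw [pcVal_inv, hva, inv_one]
    rw [pcDist_def] at ha ⊢
    rw [pcVal_def] at hva'
    have h1 : (((a⁻¹ : Eˣ) : E) : AlgebraicClosure ℚ) - 1 =
        -(((((a : Eˣ) : E) : AlgebraicClosure ℚ) - 1) *
          (((a⁻¹ : Eˣ) : E) : AlgebraicClosure ℚ)) := by
      have h2 : (((a : Eˣ) : E) : AlgebraicClosure ℚ) * (((a⁻¹ : Eˣ) : E) : AlgebraicClosure ℚ)
          = 1 := by
        rw [← MulMemClass.coe_mul, ← Units.val_mul, mul_inv_cancel]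
        rfl
      linear_combination h2
    rw [h1, Valuation.map_neg, map_mul, hva', mul_one]
    exact ha

theorem mem_pcU {t : ℝ≥0} {ht : t < 1} {a : Eˣ} : a ∈ pcU q E t ht ↔ pcDist q E a ≤ t := Iff.rfl

/-- The balls `{x ∈ E : v(x) ≤ s}` as additive subgroups of `E`. -/
noncomputable def pcBall (s : ℝ≥0) : AddSubgroup E where
  carrier := {x | qVal q (x : AlgebraicClosure ℚ) ≤ s}
  zero_mem' := by
    change qVal q ((0 : E) : AlgebraicClosure ℚ) ≤ s
    simp
  add_mem' := by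
    intro x y hx hy
    change qVal q ((x + y : E) : AlgebraicClosure ℚ) ≤ s
    rw [AddMemClass.coe_add]
    exact le_trans ((qVal q).map_add _ _) (max_le hx hy)
  neg_mem' := by
    intro x hx
    change qVal q ((-x : E) : AlgebraicClosure ℚ) ≤ s
    rw [NegMemClass.coe_neg, Valuation.map_neg]
    exact hx

theorem mem_pcBall {s : ℝ≥0} {x : E} : x ∈ pcBall q E s ↔ qVal q (x : AlgebraicClosure ℚ) ≤ s :=
  Iff.rfl

variable {q E}

/-- The `p`-th power map sends `U_t` onto `U_{t v(p)}` for `t < v(p)^(p-1)`. -/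
theorem pcU_pow_mem_iff (hE : localField q ≤ E) {p : ℕ} (hp : 2 ≤ p) {t : ℝ≥0}
    (ht : t < qVal q (p : AlgebraicClosure ℚ) ^ (p - 1)) (ht1 : t < 1)
    (ht2 : t * qVal q (p : AlgebraicClosure ℚ) < 1) (u : Eˣ) :
    u ∈ pcU q E (t * qVal q (p : AlgebraicClosure ℚ)) ht2 ↔ ∃ b ∈ pcU q E t ht1, b ^ p = u := by
  have hp0 : p ≠ 0 := by omega
  have hvp1 : qVal q (p : AlgebraicClosure ℚ) ≤ 1 := qVal_natCast_le_one q p
  have hpQ : ((p : ℕ) : AlgebraicClosure ℚ) ≠ 0 := Nat.cast_ne_zero.mpr hp0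
  have hvp0 : qVal q (p : AlgebraicClosure ℚ) ≠ 0 := qVal_ne_zero hpQ
  have htp : t < qVal q (p : AlgebraicClosure ℚ) := by
    refine lt_of_lt_of_le ht ?_
    calc qVal q (p : AlgebraicClosure ℚ) ^ (p - 1)
        ≤ qVal q (p : AlgebraicClosure ℚ) ^ 1 :=
          pow_le_pow_of_le_one zero_le hvp1 (by omega)
      _ = qVal q (p : AlgebraicClosure ℚ) := pow_one _
  constructor
  · intro hu
    rw [mem_pcU, pcDist_def] at hu
    have hlt : qVal q ((((u : Eˣ) : E) : AlgebraicClosure ℚ) - 1) <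
        qVal q (p : AlgebraicClosure ℚ) ^ p := by
      refine lt_of_le_of_lt hu ?_
      have hpow : qVal q (p : AlgebraicClosure ℚ) ^ p =
          qVal q (p : AlgebraicClosure ℚ) ^ (p - 1) * qVal q (p : AlgebraicClosure ℚ) := by
        rw [← pow_succ]
        congr 1
        omega
      rw [hpow]
      exact mul_lt_mul_of_pos_right ht (pos_iff_ne_zero.mpr hvp0)
    obtain ⟨α, hαp, hα⟩ := exists_pthRoot_close (qVal q) hp0 hlt
    have hαE : α ∈ E := by
      apply mem_of_fixed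
      intro σ hσ
      have hσu : σ (((u : Eˣ) : E) : AlgebraicClosure ℚ) = (((u : Eˣ) : E) : AlgebraicClosure ℚ) :=
        hσ ⟨_, (u : E).2⟩
      apply pthRoot_unique (qVal q) (p := p)
      · rw [← map_pow, hαp, hσu]
      · have : σ α - 1 = σ (α - 1) := by rw [map_sub, map_one]
        rw [this, qVal_galois q hE hσ]
        exact hα
      · exact hα
    have hα0 : α ≠ 0 := by
      intro h0
      rw [h0, zero_pow hp0] at hαp
      exact u.ne_zero (Subtype.ext hαp.symm)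
    refine ⟨Units.mk0 ⟨α, hαE⟩ (fun h => hα0 (congrArg Subtype.val h)), ?_, ?_⟩
    · rw [mem_pcU, pcDist_def]
      change qVal q (α - 1) ≤ t
      have h1 := val_pow_sub_one (qVal q) hα
      rw [hαp] at h1
      rw [h1, mul_comm] at hu
      exact le_of_mul_le_mul_right hu (pos_iff_ne_zero.mpr hvp0)
    · apply Units.ext
      apply Subtype.ext
      rw [Units.val_pow_eq_pow_val, SubmonoidClass.coe_pow]
      exact hαp
  · rintro ⟨b, hb, rfl⟩
    rw [mem_pcU, pcDist_def] at hb ⊢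
    rw [Units.val_pow_eq_pow_val, SubmonoidClass.coe_pow,
      val_pow_sub_one (qVal q) (lt_of_le_of_lt hb htp), mul_comm]
    gcongr

/-- `U_t` has no `p`-torsion for `t < v(p)`. -/
theorem pcU_pow_eq_one {p : ℕ} {t : ℝ≥0} (ht : t < qVal q (p : AlgebraicClosure ℚ)) (ht1 : t < 1)
    {a : Eˣ} (ha : a ∈ pcU q E t ht1) (hap : a ^ p = 1) : a = 1 := by
  rw [mem_pcU, pcDist_def] at ha
  apply Units.ext
  apply Subtype.ext
  change (((a : Eˣ) : E) : AlgebraicClosure ℚ) = 1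
  apply pthRoot_unique (qVal q) (p := p)
  · have := congrArg (fun x : Eˣ => (((x : Eˣ) : E) : AlgebraicClosure ℚ)) hap
    simp only [Units.val_pow_eq_pow_val, SubmonoidClass.coe_pow] at this
    rw [this, one_pow]
    rfl
  · exact lt_of_le_of_lt ha ht
  · rw [sub_self, map_zero]
    exact lt_of_le_of_lt zero_le ht

/-! ### The order homomorphism -/

/-- Uniformizer data for `E`. -/
structure PcUnif (q : ℕ) [Fact q.Prime] (E : IntermediateField ℚ (AlgebraicClosure ℚ))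
    (ϖ : AlgebraicClosure ℚ) : Prop where
  mem : ϖ ∈ E
  ne : ϖ ≠ 0
  lt : qVal q ϖ < 1
  gen : ∀ x ∈ E, x ≠ 0 → ∃ n : ℤ, qVal q x = qVal q ϖ ^ n

theorem exists_pcUnif (hE : IsLocalFinite q E) : ∃ ϖ, PcUnif q E ϖ := by
  obtain ⟨ϖ, h1, h2, h3, h4⟩ := exists_uniformizer hE
  exact ⟨ϖ, h1, h2, h3, h4⟩

variable {ϖ : AlgebraicClosure ℚ}

theorem PcUnif.pos (h : PcUnif q E ϖ) : 0 < qVal q ϖ := pos_iff_ne_zero.mpr (qVal_ne_zero h.ne)

theorem PcUnif.zpow_injective (h : PcUnif q E ϖ) :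
    Function.Injective (fun n : ℤ => qVal q ϖ ^ n) :=
  zpow_right_injective₀ h.pos h.lt.ne

theorem PcUnif.exists_ord (h : PcUnif q E ϖ) (a : Eˣ) : ∃ n : ℤ, pcVal q E a = qVal q ϖ ^ n :=
  h.gen _ (a : E).2 (fun h0 => a.ne_zero (Subtype.ext h0))

/-- The order of a unit of `E` (with respect to a uniformizer). -/
noncomputable def pcOrdFun (h : PcUnif q E ϖ) (a : Eˣ) : ℤ := Classical.choose (h.exists_ord a)

theorem pcOrdFun_spec (h : PcUnif q E ϖ) (a : Eˣ) : pcVal q E a = qVal q ϖ ^ pcOrdFun h a :=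
  Classical.choose_spec (h.exists_ord a)

theorem pcOrdFun_eq (h : PcUnif q E ϖ) {a : Eˣ} {n : ℤ} (hn : pcVal q E a = qVal q ϖ ^ n) :
    pcOrdFun h a = n := by
  apply h.zpow_injective
  change qVal q ϖ ^ pcOrdFun h a = qVal q ϖ ^ n
  rw [← pcOrdFun_spec, hn]

/-- The order homomorphism `Eˣ → ℤ`. -/
noncomputable def pcOrd (h : PcUnif q E ϖ) : Eˣ →* Multiplicative ℤ where
  toFun a := Multiplicative.ofAdd (pcOrdFun h a)
  map_one' := by
    have : pcOrdFun h (1 : Eˣ) = 0 := pcOrdFun_eq h (by rw [pcVal_one, zpow_zero])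
    rw [this]
    rfl
  map_mul' := by
    intro a b
    have : pcOrdFun h (a * b) = pcOrdFun h a + pcOrdFun h b := by
      apply pcOrdFun_eq
      rw [pcVal_mul, zpow_add₀ h.pos.ne', ← pcOrdFun_spec, ← pcOrdFun_spec]
    rw [this]
    rfl

theorem pcOrd_apply (h : PcUnif q E ϖ) (a : Eˣ) :
    pcOrd h a = Multiplicative.ofAdd (pcOrdFun h a) := rfl

theorem mem_ker_pcOrd (h : PcUnif q E ϖ) (a : Eˣ) : a ∈ (pcOrd h).ker ↔ pcVal q E a = 1 := by
  rw [MonoidHom.mem_ker, pcOrd_apply]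
  constructor
  · intro h0
    have h1 : pcOrdFun h a = 0 := Multiplicative.ofAdd.injective h0
    rw [pcOrdFun_spec h a, h1, zpow_zero]
  · intro h1
    have : pcOrdFun h a = 0 := pcOrdFun_eq h (by rw [h1, zpow_zero])
    rw [this]
    rfl

theorem pcOrd_surjective (h : PcUnif q E ϖ) : Function.Surjective (pcOrd h) := by
  intro n
  have hϖE : (⟨ϖ, h.mem⟩ : E) ≠ 0 := fun h0 => h.ne (congrArg Subtype.val h0)
  refine ⟨(Units.mk0 ⟨ϖ, h.mem⟩ hϖE) ^ (Multiplicative.toAdd n), ?_⟩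
  rw [pcOrd_apply]
  have : pcOrdFun h ((Units.mk0 ⟨ϖ, h.mem⟩ hϖE) ^ (Multiplicative.toAdd n)) =
      Multiplicative.toAdd n := by
    apply pcOrdFun_eq
    rw [pcVal_def, Units.val_zpow_eq_zpow_val, Units.val_mk0]
    change qVal q (ϖ ^ (Multiplicative.toAdd n)) = _
    rw [map_zpow₀]
  rw [this]
  rfl

theorem pcU_le_ker (h : PcUnif q E ϖ) {t : ℝ≥0} (ht : t < 1) : pcU q E t ht ≤ (pcOrd h).ker := by
  intro a ha
  rw [mem_ker_pcOrd]
  exact pcVal_eq_one_of_dist q E (lt_of_le_of_lt ha ht)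

/-- The unit of `E` attached to an element of `ℚ̄` of valuation `1` (junk value `1`). -/
noncomputable def pcKerUnit (h : PcUnif q E ϖ) (x : AlgebraicClosure ℚ) : (pcOrd h).ker := by
  classical
  exact if hx : x ∈ E ∧ qVal q x = 1 then
    ⟨Units.mk0 (⟨x, hx.1⟩ : E) (fun h0 => by
      have h1 : x = 0 := congrArg Subtype.val h0
      rw [h1, map_zero] at hx
      exact zero_ne_one hx.2), (mem_ker_pcOrd h _).mpr hx.2⟩ else 1

theorem pcKerUnit_coe (h : PcUnif q E ϖ) {x : AlgebraicClosure ℚ} (hxE : x ∈ E)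
    (hx1 : qVal q x = 1) :
    ((((pcKerUnit h x : (pcOrd h).ker) : Eˣ) : E) : AlgebraicClosure ℚ) = x := by
  unfold pcKerUnit
  rw [dif_pos ⟨hxE, hx1⟩]
  rfl

/-- `U_t` has finite index in the unit group. -/
theorem pcU_index_ne_zero (hE : IsLocalFinite q E) (h : PcUnif q E ϖ) {t : ℝ≥0} (ht0 : 0 < t)
    (ht1 : t < 1) : ((pcU q E t ht1).subgroupOf (pcOrd h).ker).index ≠ 0 := by
  classical
  obtain ⟨m, hm⟩ := NNReal.exists_pow_lt_of_lt_one ht0 h.lt
  obtain ⟨S, hSE, hS⟩ := exists_approx hE h.mem h.ne h.lt h.gen m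
  have hsurj : Function.Surjective
      (fun s : S => (QuotientGroup.mk (pcKerUnit h (s : AlgebraicClosure ℚ)) :
        (pcOrd h).ker ⧸ (pcU q E t ht1).subgroupOf (pcOrd h).ker)) := by
    intro x
    obtain ⟨u, rfl⟩ := QuotientGroup.mk_surjective x
    have hu1 : pcVal q E (u : Eˣ) = 1 := (mem_ker_pcOrd h _).mp u.2
    rw [pcVal_def] at hu1
    obtain ⟨s, hs, hus⟩ := hS _ ((u : Eˣ) : E).2 hu1.le
    have hus' : qVal q ((((u : Eˣ) : E) : AlgebraicClosure ℚ) - s) < 1 :=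
      lt_of_le_of_lt hus (lt_trans hm ht1)
    have hws : qVal q s = 1 := by
      have h1 : s = (((u : Eˣ) : E) : AlgebraicClosure ℚ) +
          -((((u : Eˣ) : E) : AlgebraicClosure ℚ) - s) := by ring
      rw [h1, Valuation.map_add_eq_of_lt_left _ (by rw [Valuation.map_neg, hu1]; exact hus'), hu1]
    have hs0 : s ≠ 0 := by
      intro h0
      rw [h0, map_zero] at hws
      exact zero_ne_one hws
    refine ⟨⟨s, hs⟩, ?_⟩
    change (QuotientGroup.mk (pcKerUnit h s) : (pcOrd h).ker ⧸ _) = QuotientGroup.mk u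
    rw [QuotientGroup.eq, Subgroup.mem_subgroupOf, mem_pcU, pcDist_def]
    have hcoe : ((((((pcKerUnit h s)⁻¹ * u : (pcOrd h).ker) : Eˣ) : E) : AlgebraicClosure ℚ)) =
        s⁻¹ * (((u : Eˣ) : E) : AlgebraicClosure ℚ) := by
      rw [Subgroup.coe_mul, Subgroup.coe_inv, Units.val_mul, MulMemClass.coe_mul,
        Units.val_inv_eq_inv_val]
      change ((((pcKerUnit h s : (pcOrd h).ker) : Eˣ) : E) : AlgebraicClosure ℚ)⁻¹ * _ = _
      rw [pcKerUnit_coe h (hSE s hs) hws]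
    rw [hcoe]
    have h2 : s⁻¹ * (((u : Eˣ) : E) : AlgebraicClosure ℚ) - 1 =
        s⁻¹ * ((((u : Eˣ) : E) : AlgebraicClosure ℚ) - s) := by
      field_simp
    rw [h2, map_mul, map_inv₀, hws, inv_one, one_mul]
    exact hus.trans hm.le
  have hfin : Finite ((pcOrd h).ker ⧸ (pcU q E t ht1).subgroupOf (pcOrd h).ker) :=
    Finite.of_surjective _ hsurj
  exact Subgroup.index_ne_zero_of_finite

/-- The `p`-torsion of the unit group has order `p` when `ζ_p ∈ E`. -/
theorem pc_card_ker_pow (h : PcUnif q E ϖ) {p : ℕ} (hp : p ≠ 0)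
    (hζ : ∃ ζ ∈ E, IsPrimitiveRoot ζ p) :
    Nat.card (powMonoidHom p : (pcOrd h).ker →* (pcOrd h).ker).ker = p := by
  have hle : rootsOfUnity p E ≤ (pcOrd h).ker := by
    intro a ha
    rw [mem_rootsOfUnity] at ha
    rw [mem_ker_pcOrd]
    have h1 : pcVal q E a ^ p = 1 := by rw [← pcVal_pow, ha, pcVal_one]
    exact (pow_eq_one_iff_of_nonneg zero_le hp).mp h1
  have hker : (powMonoidHom p : (pcOrd h).ker →* (pcOrd h).ker).ker =
      (rootsOfUnity p E).subgroupOf (pcOrd h).ker := by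
    ext x
    rw [MonoidHom.mem_ker, Subgroup.mem_subgroupOf, mem_rootsOfUnity, powMonoidHom_apply]
    constructor
    · intro hx
      have := congrArg (fun y : (pcOrd h).ker => (y : Eˣ)) hx
      simpa using this
    · intro hx
      apply Subtype.ext
      simpa using hx
  rw [hker, Nat.card_congr (Subgroup.subgroupOfEquivOfLe hle).toEquiv]
  obtain ⟨ζ, hζE, hζp⟩ := hζ
  have : NeZero p := ⟨hp⟩
  have hζ' : IsPrimitiveRoot (⟨ζ, hζE⟩ : E) p :=
    IsPrimitiveRoot.coe_submonoidClass_iff.mp hζp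
  exact hζ'.card_rootsOfUnity

/-! ### `U_t / U_{t s} ≅ O / {v ≤ s}` -/

section Theta

variable {τ : AlgebraicClosure ℚ} (hτE : τ ∈ E) (hτ0 : τ ≠ 0) (ht1 : qVal q τ < 1)

/-- `a ↦ (a - 1) / τ`, from `U_{v(τ)}` to the integers of `E`. -/
noncomputable def pcThetaFun (a : pcU q E (qVal q τ) ht1) : pcBall q E 1 :=
  ⟨(((a : Eˣ) : E) - 1) / ⟨τ, hτE⟩, by
    rw [mem_pcBall]
    have ha : pcDist q E (a : Eˣ) ≤ qVal q τ := a.2
    rw [pcDist_def] at ha
    change qVal q (((((a : Eˣ) : E) : AlgebraicClosure ℚ) - 1) / τ) ≤ 1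
    rw [map_div₀]
    exact (div_le_one₀ (pos_iff_ne_zero.mpr (qVal_ne_zero hτ0))).mpr ha⟩

theorem pcThetaFun_coe (a : pcU q E (qVal q τ) ht1) :
    (((pcThetaFun hτE hτ0 ht1 a : pcBall q E 1) : E) : AlgebraicClosure ℚ) =
      ((((a : Eˣ) : E) : AlgebraicClosure ℚ) - 1) / τ := rfl

/-- The homomorphism `U_t → O / {v ≤ s}` for `t = v(τ) ≤ s`. -/
noncomputable def pcTheta (s : ℝ≥0) (hs : qVal q τ ≤ s) :
    pcU q E (qVal q τ) ht1 →*
      Multiplicative (pcBall q E 1 ⧸ (pcBall q E s).addSubgroupOf (pcBall q E 1)) where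
  toFun a := Multiplicative.ofAdd (QuotientAddGroup.mk (pcThetaFun hτE hτ0 ht1 a))
  map_one' := by
    have : pcThetaFun hτE hτ0 ht1 1 = 0 := by
      apply Subtype.ext
      apply Subtype.ext
      rw [pcThetaFun_coe]
      simp
    rw [this]
    rfl
  map_mul' := by
    intro a b
    have hkey : (QuotientAddGroup.mk (pcThetaFun hτE hτ0 ht1 (a * b)) :
        pcBall q E 1 ⧸ (pcBall q E s).addSubgroupOf (pcBall q E 1)) =
        QuotientAddGroup.mk (pcThetaFun hτE hτ0 ht1 a + pcThetaFun hτE hτ0 ht1 b) := by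
      rw [eq_comm, QuotientAddGroup.eq, AddSubgroup.mem_addSubgroupOf, mem_pcBall]
      have ha : pcDist q E (a : Eˣ) ≤ qVal q τ := a.2
      have hb : pcDist q E (b : Eˣ) ≤ qVal q τ := b.2
      rw [pcDist_def] at ha hb
      have h1 : (((-(pcThetaFun hτE hτ0 ht1 a + pcThetaFun hτE hτ0 ht1 b) +
          pcThetaFun hτE hτ0 ht1 (a * b) : pcBall q E 1) : E) : AlgebraicClosure ℚ) =
          ((((a : Eˣ) : E) : AlgebraicClosure ℚ) - 1) *
            ((((b : Eˣ) : E) : AlgebraicClosure ℚ) - 1) / τ := by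
        rw [AddSubgroup.coe_add, AddSubgroup.coe_neg, AddSubgroup.coe_add,
          AddMemClass.coe_add, NegMemClass.coe_neg, AddMemClass.coe_add, pcThetaFun_coe,
          pcThetaFun_coe, pcThetaFun_coe, Subgroup.coe_mul, Units.val_mul, MulMemClass.coe_mul]
        field_simp
        ring
      rw [h1, map_div₀, map_mul]
      have hτpos : 0 < qVal q τ := pos_iff_ne_zero.mpr (qVal_ne_zero hτ0)
      rw [div_le_iff₀ hτpos]
      calc qVal q ((((a : Eˣ) : E) : AlgebraicClosure ℚ) - 1) *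
            qVal q ((((b : Eˣ) : E) : AlgebraicClosure ℚ) - 1)
          ≤ qVal q τ * qVal q τ := mul_le_mul' ha hb
        _ ≤ s * qVal q τ := by gcongr
    change Multiplicative.ofAdd (QuotientAddGroup.mk (pcThetaFun hτE hτ0 ht1 (a * b))) =
      Multiplicative.ofAdd (QuotientAddGroup.mk (pcThetaFun hτE hτ0 ht1 a)) *
        Multiplicative.ofAdd (QuotientAddGroup.mk (pcThetaFun hτE hτ0 ht1 b))
    rw [hkey]
    rfl

theorem pcTheta_apply (s : ℝ≥0) (hs : qVal q τ ≤ s) (a : pcU q E (qVal q τ) ht1) :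
    pcTheta hτE hτ0 ht1 s hs a =
      Multiplicative.ofAdd (QuotientAddGroup.mk (pcThetaFun hτE hτ0 ht1 a)) := rfl

theorem pcTheta_surjective (s : ℝ≥0) (hs : qVal q τ ≤ s) :
    Function.Surjective (pcTheta hτE hτ0 ht1 s hs) := by
  intro y
  obtain ⟨x, hx⟩ := QuotientAddGroup.mk_surjective (Multiplicative.toAdd y)
  have hx1 : qVal q ((x : E) : AlgebraicClosure ℚ) ≤ 1 := x.2
  have hd : qVal q (τ * ((x : E) : AlgebraicClosure ℚ)) ≤ qVal q τ := by
    rw [map_mul]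
    calc qVal q τ * qVal q ((x : E) : AlgebraicClosure ℚ) ≤ qVal q τ * 1 := by gcongr
      _ = qVal q τ := mul_one _
  have hv : qVal q (1 + τ * ((x : E) : AlgebraicClosure ℚ)) = 1 :=
    Valuation.map_one_add_of_lt (qVal q) (lt_of_le_of_lt hd ht1)
  have hne : (1 + ⟨τ, hτE⟩ * (x : E) : E) ≠ 0 := by
    intro h0
    have h1 : (1 + τ * ((x : E) : AlgebraicClosure ℚ)) = 0 := congrArg Subtype.val h0
    rw [h1, map_zero] at hv
    exact zero_ne_one hv
  have hmem : Units.mk0 (1 + ⟨τ, hτE⟩ * (x : E) : E) hne ∈ pcU q E (qVal q τ) ht1 := by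
    rw [mem_pcU, pcDist_def]
    change qVal q ((1 + τ * ((x : E) : AlgebraicClosure ℚ)) - 1) ≤ _
    rw [add_sub_cancel_left]
    exact hd
  refine ⟨⟨_, hmem⟩, ?_⟩
  rw [pcTheta_apply]
  apply Multiplicative.toAdd.injective
  rw [← hx]
  change (QuotientAddGroup.mk (pcThetaFun hτE hτ0 ht1 ⟨_, hmem⟩) : _ ⧸ _) = QuotientAddGroup.mk x
  congr 1
  apply Subtype.ext
  apply Subtype.ext
  rw [pcThetaFun_coe]
  change ((1 + τ * ((x : E) : AlgebraicClosure ℚ)) - 1) / τ = _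
  field_simp
  ring

theorem pcTheta_ker (s : ℝ≥0) (hs : qVal q τ ≤ s) (ht2 : qVal q τ * s < 1) :
    (pcTheta hτE hτ0 ht1 s hs).ker =
      (pcU q E (qVal q τ * s) ht2).subgroupOf (pcU q E (qVal q τ) ht1) := by
  ext a
  rw [MonoidHom.mem_ker, Subgroup.mem_subgroupOf, mem_pcU, pcDist_def, pcTheta_apply]
  have hτpos : 0 < qVal q τ := pos_iff_ne_zero.mpr (qVal_ne_zero hτ0)
  have hiff : (QuotientAddGroup.mk (pcThetaFun hτE hτ0 ht1 a) :
      pcBall q E 1 ⧸ (pcBall q E s).addSubgroupOf (pcBall q E 1)) = 0 ↔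
      qVal q ((((a : Eˣ) : E) : AlgebraicClosure ℚ) - 1) ≤ qVal q τ * s := by
    rw [QuotientAddGroup.eq_zero_iff, AddSubgroup.mem_addSubgroupOf, mem_pcBall, pcThetaFun_coe,
      map_div₀, div_le_iff₀ hτpos, mul_comm]
  constructor
  · intro h0
    exact hiff.mp (Multiplicative.ofAdd.injective h0)
  · intro h0
    rw [hiff.mpr h0]
    rfl

include hτE hτ0 in
/-- `[U_t : U_{t s}] = [O : {v ≤ s}]` for `t = v(τ) ≤ s`. -/
theorem pcU_relIndex_eq (s : ℝ≥0) (hs : qVal q τ ≤ s) (ht2 : qVal q τ * s < 1) :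
    (pcU q E (qVal q τ * s) ht2).relIndex (pcU q E (qVal q τ) ht1) =
      (pcBall q E s).relIndex (pcBall q E 1) := by
  rw [Subgroup.relIndex, ← pcTheta_ker hτE hτ0 ht1 s hs ht2, Subgroup.index_ker,
    MonoidHom.range_eq_top.mpr (pcTheta_surjective hτE hτ0 ht1 s hs), Subgroup.card_top,
    AddSubgroup.relIndex, AddSubgroup.index_eq_card]
  exact Nat.card_congr Multiplicative.toAdd

end Theta

/-- **The order of `Eˣ / (Eˣ)^p`** for a finite extension `E` of `K_v` containing `ζ_p`: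
`[Eˣ : (Eˣ)^p] = p * (p * [O_E : p O_E])`. -/
theorem pc_index_pow (hE : IsLocalFinite q E) {p : ℕ} (hp : p.Prime)
    (hζ : ∃ ζ ∈ E, IsPrimitiveRoot ζ p) :
    (powMonoidHom p : Eˣ →* Eˣ).range.index =
      p * (p * (pcBall q E (qVal q (p : AlgebraicClosure ℚ))).relIndex (pcBall q E 1)) := by
  obtain ⟨ϖ, h⟩ := exists_pcUnif hE
  have hp0 : p ≠ 0 := hp.ne_zero
  have hp2 : 2 ≤ p := hp.two_le
  have hpQ : ((p : ℕ) : AlgebraicClosure ℚ) ≠ 0 := Nat.cast_ne_zero.mpr hp0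
  have hvp0 : 0 < qVal q (p : AlgebraicClosure ℚ) := pos_iff_ne_zero.mpr (qVal_ne_zero hpQ)
  have hvp1 : qVal q (p : AlgebraicClosure ℚ) ≤ 1 := qVal_natCast_le_one q p
  have hvpp : qVal q (p : AlgebraicClosure ℚ) ^ (p - 1) ≤ qVal q (p : AlgebraicClosure ℚ) := by
    calc qVal q (p : AlgebraicClosure ℚ) ^ (p - 1)
        ≤ qVal q (p : AlgebraicClosure ℚ) ^ 1 :=
          pow_le_pow_of_le_one zero_le hvp1 (by omega)
      _ = qVal q (p : AlgebraicClosure ℚ) := pow_one _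
  obtain ⟨m, hm⟩ := NNReal.exists_pow_lt_of_lt_one (pow_pos hvp0 (p - 1)) h.lt
  -- `τ = ϖ ^ m`
  set τ : AlgebraicClosure ℚ := ϖ ^ m with hτ
  have hτE : τ ∈ E := pow_mem h.mem m
  have hτ0 : τ ≠ 0 := pow_ne_zero m h.ne
  have hvτ : qVal q τ = qVal q ϖ ^ m := by rw [hτ, map_pow]
  have ht : qVal q τ < qVal q (p : AlgebraicClosure ℚ) ^ (p - 1) := by rw [hvτ]; exact hm
  have htp : qVal q τ < qVal q (p : AlgebraicClosure ℚ) := lt_of_lt_of_le ht hvpp
  have ht1 : qVal q τ < 1 := lt_of_lt_of_le htp hvp1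
  have ht0 : 0 < qVal q τ := pos_iff_ne_zero.mpr (qVal_ne_zero hτ0)
  have ht2 : qVal q τ * qVal q (p : AlgebraicClosure ℚ) < 1 := by
    calc qVal q τ * qVal q (p : AlgebraicClosure ℚ) ≤ qVal q τ * 1 := by gcongr
      _ = qVal q τ := mul_one _
      _ < 1 := ht1
  -- step 1: reduce to the unit group
  rw [pc_index_pow_range (pcOrd h) (pcOrd_surjective h) p hp0]
  congr 1
  -- step 2: the unit group
  set K : Subgroup Eˣ := (pcOrd h).ker with hK
  set V : Subgroup K := (pcU q E (qVal q τ) ht1).subgroupOf K with hV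
  have hVmap : V.map (powMonoidHom p : K →* K) =
      (pcU q E (qVal q τ * qVal q (p : AlgebraicClosure ℚ)) ht2).subgroupOf K := by
    ext x
    rw [Subgroup.mem_map, Subgroup.mem_subgroupOf, pcU_pow_mem_iff hE.le hp2 ht ht1 ht2]
    constructor
    · rintro ⟨y, hy, rfl⟩
      exact ⟨(y : Eˣ), Subgroup.mem_subgroupOf.mp hy, rfl⟩
    · rintro ⟨b, hb, hbx⟩
      refine ⟨⟨b, pcU_le_ker h ht1 hb⟩, Subgroup.mem_subgroupOf.mpr hb, ?_⟩
      apply Subtype.ext
      exact hbx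
  have hstab : V.map (powMonoidHom p : K →* K) ≤ V := by
    rintro _ ⟨y, hy, rfl⟩
    exact Subgroup.pow_mem V hy p
  have hdisj : Disjoint V (powMonoidHom p : K →* K).ker := by
    rw [Subgroup.disjoint_def]
    intro x hxV hxk
    rw [MonoidHom.mem_ker, powMonoidHom_apply] at hxk
    apply Subtype.ext
    apply pcU_pow_eq_one htp ht1 (Subgroup.mem_subgroupOf.mp hxV)
    have := congrArg (fun y : K => (y : Eˣ)) hxk
    simpa using this
  rw [pc_index_range_eq (powMonoidHom p : K →* K) V (pcU_index_ne_zero hE h ht0 ht1) hdisj hstab,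
    pc_card_ker_pow h hp0 hζ, hVmap, hV, Subgroup.relIndex_subgroupOf (pcU_le_ker h ht1),
    pcU_relIndex_eq hτE hτ0 ht1 _ htp.le ht2]

end Local

end Fermat.Agent.H97
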