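/-
P-CFT / LOCAL row LOC-CARD (helper97), part C: the index `[O_E : p O_E]` for a finite
extension `E` of `K_v`:

  `[O_E : {v ≤ v(p)}] = p ^ [E : K_v]` if `q = p`,  `= 1` if `q ≠ p`   (`pcBall_relIndex`).

Uses helper81's integral basis (no defect) and the residue field `𝔽_q` of `K_v`.
-/
import Fermat.Agent.H97.Cft.PowCardLocal
import Fermat.Agent.H81.Local.IntBasis

set_option autoImplicit false

open Polynomial IntermediateField

open scoped NNReal

namespace Fermat.Agent.H97

open Fermat.Agent.H81.Local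

section Residue

variable {q : ℕ} [Fact q.Prime]

/-- `v(n) < 1 ↔ q ∣ n` for an integer `n`. -/
theorem pc_qVal_intCast_lt_one_iff (n : ℤ) :
    qVal q (n : AlgebraicClosure ℚ) < 1 ↔ (q : ℤ) ∣ n := by
  rw [← NNReal.coe_lt_coe, coe_qVal, map_intCast, NNReal.coe_one]
  have h := PadicAlgCl.norm_extends q (n : ℚ_[q])
  rw [map_intCast] at h
  rw [h]
  exact Padic.norm_intCast_lt_one_iff

/-- `v(p) = 1` for a prime `p ≠ q`. -/
theorem pc_qVal_prime_ne {p : ℕ} (hp : p.Prime) (hpq : q ≠ p) :
    qVal q (p : AlgebraicClosure ℚ) = 1 := by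
  have hq : q.Prime := Fact.out
  apply le_antisymm (qVal_natCast_le_one q p)
  by_contra hlt
  have h1 : qVal q ((p : ℤ) : AlgebraicClosure ℚ) < 1 := by
    rw [Int.cast_natCast]
    exact not_le.mp hlt
  rw [pc_qVal_intCast_lt_one_iff] at h1
  have h2 : q ∣ p := by exact_mod_cast h1
  exact hpq ((Nat.prime_dvd_prime_iff_eq hq hp).mp h2)

/-- The reduction map `O_{K_v} → 𝔽_q` (junk value `0` outside the integers). -/
noncomputable def pcRed (x : AlgebraicClosure ℚ) : ZMod q := by
  classical
  exact if h : x ∈ localField q ∧ qVal q x ≤ 1 then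
    ((Classical.choose (exists_nat_rep q h.1 h.2) : ℕ) : ZMod q) else 0

theorem pcRed_eq_iff {x : AlgebraicClosure ℚ} (hx : x ∈ localField q) (hx1 : qVal q x ≤ 1)
    (k : ℤ) : pcRed (q := q) x = (k : ZMod q) ↔ qVal q (x - (k : AlgebraicClosure ℚ)) < 1 := by
  unfold pcRed
  rw [dif_pos ⟨hx, hx1⟩]
  set k₀ : ℕ := Classical.choose (exists_nat_rep q hx hx1) with hk₀
  have hspec : qVal q (x - (k₀ : AlgebraicClosure ℚ)) < 1 :=
    (Classical.choose_spec (exists_nat_rep q hx hx1)).2
  have hcast : ((k₀ : ℕ) : ZMod q) = (((k₀ : ℤ)) : ZMod q) := by push_cast; rfl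
  rw [hcast, ZMod.intCast_eq_intCast_iff_dvd_sub, ← pc_qVal_intCast_lt_one_iff]
  push_cast
  constructor
  · intro h
    have : x - (k : AlgebraicClosure ℚ) =
        (x - (k₀ : AlgebraicClosure ℚ)) - ((k : AlgebraicClosure ℚ) - (k₀ : AlgebraicClosure ℚ)) := by
      ring
    rw [this]
    exact lt_of_le_of_lt ((qVal q).map_sub _ _) (max_lt hspec h)
  · intro h
    have : (k : AlgebraicClosure ℚ) - (k₀ : AlgebraicClosure ℚ) =
        (x - (k₀ : AlgebraicClosure ℚ)) - (x - (k : AlgebraicClosure ℚ)) := by ring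
    rw [this]
    exact lt_of_le_of_lt ((qVal q).map_sub _ _) (max_lt hspec h)

theorem pcRed_exists_int {x : AlgebraicClosure ℚ} (hx : x ∈ localField q) (hx1 : qVal q x ≤ 1) :
    ∃ k : ℤ, pcRed (q := q) x = (k : ZMod q) ∧ qVal q (x - (k : AlgebraicClosure ℚ)) < 1 := by
  obtain ⟨k, -, hk⟩ := exists_nat_rep q hx hx1
  refine ⟨(k : ℤ), ?_, by simpa using hk⟩
  rw [pcRed_eq_iff hx hx1]
  simpa using hk

theorem pcRed_add {x y : AlgebraicClosure ℚ} (hx : x ∈ localField q) (hx1 : qVal q x ≤ 1)
    (hy : y ∈ localField q) (hy1 : qVal q y ≤ 1) :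
    pcRed (q := q) (x + y) = pcRed (q := q) x + pcRed (q := q) y := by
  obtain ⟨k, hk, hkx⟩ := pcRed_exists_int hx hx1
  obtain ⟨l, hl, hly⟩ := pcRed_exists_int hy hy1
  have hxy1 : qVal q (x + y) ≤ 1 := le_trans ((qVal q).map_add _ _) (max_le hx1 hy1)
  rw [hk, hl, ← Int.cast_add, pcRed_eq_iff (add_mem hx hy) hxy1]
  have : x + y - ((k + l : ℤ) : AlgebraicClosure ℚ) =
      (x - (k : AlgebraicClosure ℚ)) + (y - (l : AlgebraicClosure ℚ)) := by
    push_cast
    ring
  rw [this]
  exact lt_of_le_of_lt ((qVal q).map_add _ _) (max_lt hkx hly)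

theorem pcRed_eq_zero_iff {x : AlgebraicClosure ℚ} (hx : x ∈ localField q)
    (hx1 : qVal q x ≤ 1) : pcRed (q := q) x = 0 ↔ qVal q x < 1 := by
  have := pcRed_eq_iff hx hx1 0
  simpa using this

theorem pcRed_natCast (k : ℕ) : pcRed (q := q) (k : AlgebraicClosure ℚ) = (k : ZMod q) := by
  have h := pcRed_eq_iff (q := q) (x := (k : AlgebraicClosure ℚ)) (_root_.natCast_mem _ k)
    (qVal_natCast_le_one q k) (k : ℤ)
  have h2 : ((k : ℤ) : ZMod q) = (k : ZMod q) := by push_cast; rfl
  rw [← h2, h]
  simp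

/-- In `K_v`: `v(x) < 1 ↔ v(x) ≤ v(q)`. -/
theorem pc_localField_lt_one_iff {x : AlgebraicClosure ℚ} (hx : x ∈ localField q) :
    qVal q x < 1 ↔ qVal q x ≤ qVal q (q : AlgebraicClosure ℚ) := by
  rw [qVal_natCast_self]
  constructor
  · intro h
    by_cases hx0 : x = 0
    · rw [hx0, map_zero]
      exact zero_le
    · obtain ⟨k, hk⟩ := qVal_localField q hx hx0
      rw [hk] at h ⊢
      have := pf_val_le_of_lt_one (qInv_pos q) (qInv_lt_one q) h
      exact this
  · intro h
    exact lt_of_le_of_lt h (qInv_lt_one q)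

end Residue

section Index

variable {q : ℕ} [Fact q.Prime] {E : IntermediateField ℚ (AlgebraicClosure ℚ)}

/-- A finite extension of `K_v` (in the sense of `IsLocalFinite`) is finite-dimensional over
`K_v`. -/
theorem pc_finiteDimensional (hE : IsLocalFinite q E) :
    FiniteDimensional (localField q) (IntermediateField.extendScalars hE.le) := by
  obtain ⟨F₀, hF₀, hle⟩ := hE.exists_le_sup
  set M : IntermediateField (localField q) (AlgebraicClosure ℚ) :=
    adjoin (localField q) (F₀ : Set (AlgebraicClosure ℚ)) with hM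
  have hrank : Module.rank (localField q) M ≤ Module.rank ℚ F₀ :=
    IntermediateField.adjoin_rank_le_of_isAlgebraic_right (localField q) F₀
  have hfin : Module.rank ℚ F₀ < Cardinal.aleph0 := Module.rank_lt_aleph0 ℚ F₀
  have hMfin : Module.Finite (localField q) M :=
    Module.rank_lt_aleph0_iff.mp (lt_of_le_of_lt hrank hfin)
  have hle' : localField q ⊔ F₀ ≤ M.restrictScalars ℚ := by
    apply sup_le
    · intro x hx
      exact M.algebraMap_mem ⟨x, hx⟩
    · intro x hx
      rw [IntermediateField.mem_restrictScalars]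
      exact subset_adjoin (localField q) (F₀ : Set (AlgebraicClosure ℚ)) hx
  have hFM : IntermediateField.extendScalars hE.le ≤ M := by
    intro x hx
    rw [IntermediateField.mem_extendScalars] at hx
    exact hle' (hle hx)
  exact FiniteDimensional.of_injective (IntermediateField.inclusion hFM).toLinearMap
    (IntermediateField.inclusion_injective hFM)

/-- `[O_E : q O_E] = q ^ [E : K_v]`. -/
theorem pcBall_relIndex_self (hE : IsLocalFinite q E) :
    (pcBall q E (qVal q (q : AlgebraicClosure ℚ))).relIndex (pcBall q E 1) =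
      q ^ (IntermediateField.relfinrank (localField q) E) := by
  classical
  have hq : q.Prime := Fact.out
  have : NeZero q := ⟨hq.ne_zero⟩
  have hfd := pc_finiteDimensional hE
  rw [IntermediateField.relfinrank_eq_finrank_of_le hE.le]
  set F : IntermediateField (localField q) (AlgebraicClosure ℚ) :=
    IntermediateField.extendScalars hE.le with hF
  obtain ⟨b, hb⟩ := exists_integral_basis (isLocalFinite_localField q) F
  have hqQ : ((q : ℕ) : AlgebraicClosure ℚ) ≠ 0 := Nat.cast_ne_zero.mpr hq.ne_zero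
  have hvq0 : 0 < qVal q (q : AlgebraicClosure ℚ) := pos_iff_ne_zero.mpr (qVal_ne_zero hqQ)
  -- the embedding of `E` into `F`
  let toF : E → F := fun x => ⟨(x : AlgebraicClosure ℚ),
    (IntermediateField.mem_extendScalars hE.le).mpr x.2⟩
  have toF_add : ∀ x y : E, toF (x + y) = toF x + toF y := fun x y => rfl
  have toF_zero : toF 0 = 0 := rfl
  have hcoord : ∀ x : E, qVal q (x : AlgebraicClosure ℚ) ≤ 1 →
      ∀ i, qVal q ((b.repr (toF x) i : localField q) : AlgebraicClosure ℚ) ≤ 1 :=
    fun x hx => (hb (toF x)).mp hx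
  -- coordinates and division by `q`
  have hsmul : ∀ (y : F), qValOn q F (((q : ℕ) : localField q)⁻¹ • y) =
      (qVal q (q : AlgebraicClosure ℚ))⁻¹ * qValOn q F y := by
    intro y
    rw [Algebra.smul_def, map_mul]
    congr 1
    rw [qValOn_algebraMap]
    change qVal q (((q : ℕ) : AlgebraicClosure ℚ)⁻¹) = _
    rw [map_inv₀]
  have hdiv : ∀ x : E, qVal q (x : AlgebraicClosure ℚ) ≤ qVal q (q : AlgebraicClosure ℚ) ↔
      ∀ i, qVal q ((b.repr (toF x) i : localField q) : AlgebraicClosure ℚ) ≤
        qVal q (q : AlgebraicClosure ℚ) := by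
    intro x
    have h1 : qVal q (x : AlgebraicClosure ℚ) ≤ qVal q (q : AlgebraicClosure ℚ) ↔
        qValOn q F (((q : ℕ) : localField q)⁻¹ • toF x) ≤ 1 := by
      rw [hsmul, inv_mul_le_iff₀ hvq0, mul_one]
      rfl
    rw [h1, hb]
    apply forall_congr'
    intro i
    rw [map_smul, Finsupp.smul_apply, smul_eq_mul, MulMemClass.coe_mul, map_mul]
    have hinv : qVal q ((((q : ℕ) : localField q)⁻¹ : localField q) : AlgebraicClosure ℚ) =
        (qVal q (q : AlgebraicClosure ℚ))⁻¹ := by
      change qVal q (((q : ℕ) : AlgebraicClosure ℚ)⁻¹) = _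
      rw [map_inv₀]
    rw [hinv, inv_mul_le_iff₀ hvq0, mul_one]
  -- the reduction of coordinates
  let g : pcBall q E 1 →+ (Fin (Module.finrank (localField q) F) → ZMod q) :=
    { toFun := fun x i => pcRed (q := q)
        ((b.repr (toF (x : E)) i : localField q) : AlgebraicClosure ℚ)
      map_zero' := by
        funext i
        change pcRed (q := q) ((b.repr (toF 0) i : localField q) : AlgebraicClosure ℚ) = 0
        rw [toF_zero, map_zero, Finsupp.zero_apply]
        change pcRed (q := q) (0 : AlgebraicClosure ℚ) = 0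
        rw [pcRed_eq_zero_iff (zero_mem _) (by simp)]
        simp
      map_add' := by
        intro x y
        funext i
        change pcRed (q := q) ((b.repr (toF ((x : E) + (y : E))) i : localField q) :
          AlgebraicClosure ℚ) = pcRed (q := q) _ + pcRed (q := q) _
        rw [toF_add, map_add, Finsupp.add_apply]
        change pcRed (q := q) (((b.repr (toF (x : E)) i : localField q) : AlgebraicClosure ℚ) +
          ((b.repr (toF (y : E)) i : localField q) : AlgebraicClosure ℚ)) = _
        exact pcRed_add (b.repr (toF (x : E)) i).2 (hcoord x x.2 i)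
          (b.repr (toF (y : E)) i).2 (hcoord y y.2 i) }
  have hg_apply : ∀ (x : pcBall q E 1) (i : Fin (Module.finrank (localField q) F)),
      g x i = pcRed (q := q)
      ((b.repr (toF (x : E)) i : localField q) : AlgebraicClosure ℚ) := fun _ _ => rfl
  have hker : g.ker = (pcBall q E (qVal q (q : AlgebraicClosure ℚ))).addSubgroupOf
      (pcBall q E 1) := by
    ext x
    rw [AddMonoidHom.mem_ker, AddSubgroup.mem_addSubgroupOf, mem_pcBall, hdiv, funext_iff]
    apply forall_congr'
    intro i
    rw [hg_apply, Pi.zero_apply, pcRed_eq_zero_iff (b.repr (toF (x : E)) i).2 (hcoord x x.2 i),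
      pc_localField_lt_one_iff (b.repr (toF (x : E)) i).2]
  have hsurj : Function.Surjective g := by
    intro f
    set y : F := ∑ i, (((f i).val : ℕ) : localField q) • b i with hy
    have hrepr : ∀ i, b.repr y i = (((f i).val : ℕ) : localField q) := by
      intro i
      rw [hy, b.repr_sum_self]
    have hy1 : qValOn q F y ≤ 1 := by
      rw [hb]
      intro i
      rw [hrepr]
      exact qVal_natCast_le_one q _
    have hyE : (y : AlgebraicClosure ℚ) ∈ E := (IntermediateField.mem_extendScalars hE.le).mp y.2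
    refine ⟨⟨⟨(y : AlgebraicClosure ℚ), hyE⟩, hy1⟩, ?_⟩
    funext i
    rw [hg_apply]
    have htoF : toF (⟨(y : AlgebraicClosure ℚ), hyE⟩ : E) = y := rfl
    change pcRed (q := q) ((b.repr (toF (⟨(y : AlgebraicClosure ℚ), hyE⟩ : E)) i :
      localField q) : AlgebraicClosure ℚ) = f i
    rw [htoF, hrepr]
    change pcRed (q := q) (((f i).val : ℕ) : AlgebraicClosure ℚ) = f i
    rw [pcRed_natCast, ZMod.natCast_zmod_val]
  rw [AddSubgroup.relIndex, ← hker, AddSubgroup.index_ker,
    AddMonoidHom.range_eq_top.mpr hsurj, AddSubgroup.card_top, Nat.card_fun, Nat.card_zmod,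
    Nat.card_fin]

/-- `[O_E : p O_E]` for a prime `p`: `p ^ [E : K_v]` if `q = p`, `1` otherwise. -/
theorem pcBall_relIndex (hE : IsLocalFinite q E) {p : ℕ} (hp : p.Prime) :
    (pcBall q E (qVal q (p : AlgebraicClosure ℚ))).relIndex (pcBall q E 1) =
      if q = p then p ^ (IntermediateField.relfinrank (localField q) E) else 1 := by
  split_ifs with h
  · subst h
    exact pcBall_relIndex_self hE
  · rw [pc_qVal_prime_ne hp h, AddSubgroup.relIndex_self]

end Index

end Fermat.Agent.H97
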