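/-
P-CFT / LOCAL row LOC-CARD (helper97), part D: the order of `H¹(Gal(ℚ̄/E), ZMod p)` for a finite
extension `E` of `K_v` containing `ζ_p`:

  `fieldH1Card : Fermat.Agent.H78.CFT.FieldH1CardStatement`
  (`# H¹ = p ^ (2 + [E : K_v])` if `q = p`, `p ^ 2` otherwise).

* `pc_card_lvlHom`: Kummer theory as a count, `# Hom_lvl(G_E, ZMod p) = [Eˣ : (Eˣ)^p]`
  (any intermediate field `E ∋ ζ_p`; from helper47's `kummerE`);
* `powCard`: `[Eˣ : (Eˣ)^p] = p ^ (2 + [E : K_v])` resp. `p ^ 2`.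
-/
import Fermat.Agent.H97.Cft.PowCardResidue
import Fermat.Agent.H47.Cft.KummerE

set_option autoImplicit false

open scoped NNReal

namespace Fermat.Agent.H97

open Fermat.Agent.H13.Cft Fermat.Agent.H78.CFT Fermat.Agent.H81.Local

/-- The unit of `ℚ̄` attached to a unit of `E`. -/
noncomputable def pcToQb (E : IntermediateField ℚ Qb) : Eˣ →* Qbˣ :=
  Units.map ((algebraMap E Qb : E →+* Qb) : E →* Qb)

theorem pcToQb_coe (E : IntermediateField ℚ Qb) (b : Eˣ) :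
    ((pcToQb E b : Qbˣ) : Qb) = ((b : E) : Qb) := rfl

/-- **Kummer theory as a count**: `# Hom_lvl(G_E, ZMod p) = [Eˣ : (Eˣ)^p]` for every intermediate
field `E` of `ℚ̄ / ℚ` containing a primitive `p`-th root of unity. -/
theorem pc_card_lvlHom (p : ℕ) [Fact p.Prime] (E : IntermediateField ℚ Qb) (ζ : Qbˣ)
    (hζ : IsPrimitiveRoot (ζ : Qb) p) (hζE : (ζ : Qb) ∈ E) :
    Nat.card {χ : E.fixingSubgroup → ZMod p // IsLvlHom (lvlE E) χ} =
      (powMonoidHom p : Eˣ →* Eˣ).range.index := by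
  classical
  have hp : p.Prime := Fact.out
  obtain ⟨h1, h2, h3⟩ := Fermat.Agent.H47.Cft.kummerE p E ζ hζ hζE
  -- the chosen Kummer generator
  choose! gen hgen using h1
  have hgenE : ∀ χ : E.fixingSubgroup → ZMod p, IsLvlHom (lvlE E) χ →
      ((gen χ : Qbˣ) : Qb) ^ p ∈ E := fun χ hχ => (h3 χ (gen χ) (hgen χ hχ)).1
  -- the class of `gen χ ^ p`
  let cls : {χ : E.fixingSubgroup → ZMod p // IsLvlHom (lvlE E) χ} → Eˣ :=
    fun χ => Units.mk0 ⟨((gen χ.1 : Qbˣ) : Qb) ^ p, hgenE χ.1 χ.2⟩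
      (fun h0 => pow_ne_zero p (gen χ.1).ne_zero (congrArg Subtype.val h0))
  have hcls : ∀ χ, (((cls χ : Eˣ) : E) : Qb) = ((gen χ.1 : Qbˣ) : Qb) ^ p := fun _ => rfl
  let κ : {χ : E.fixingSubgroup → ZMod p // IsLvlHom (lvlE E) χ} →
      Eˣ ⧸ (powMonoidHom p : Eˣ →* Eˣ).range := fun χ => QuotientGroup.mk (cls χ)
  have hfixE : ∀ (b : Eˣ) (g : E.fixingSubgroup),
      (g : Qb ≃ₐ[ℚ] Qb) (((b : E) : Qb)) = ((b : E) : Qb) := fun b g =>
    (IntermediateField.mem_fixingSubgroup_iff E g.1).mp g.2 _ (b : E).2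
  have hinj : Function.Injective κ := by
    intro χ χ' hκ
    change (QuotientGroup.mk (cls χ) : Eˣ ⧸ _) = QuotientGroup.mk (cls χ') at hκ
    rw [QuotientGroup.eq] at hκ
    obtain ⟨b, hb⟩ := hκ
    rw [powMonoidHom_apply] at hb
    -- `gen χ * b` is a Kummer generator of `χ` with the same `p`-th power as `gen χ'`
    have hgb : IsKummerGenE E ζ χ.1 (gen χ.1 * pcToQb E b) := by
      rw [Fermat.Agent.H47.Cft.isKummerGenE_iff]
      intro g
      have hg := (Fermat.Agent.H47.Cft.isKummerGenE_iff E ζ χ.1 (gen χ.1)).mp (hgen χ.1 χ.2) g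
      rw [Units.val_mul, map_mul, hg, pcToQb_coe, hfixE b g]
      ring
    have hpow : ((gen χ.1 * pcToQb E b : Qbˣ) : Qb) ^ p = ((gen χ'.1 : Qbˣ) : Qb) ^ p := by
      have hb' := congrArg (fun x : Eˣ => (((x : Eˣ) : E) : Qb)) hb
      simp only [Units.val_pow_eq_pow_val, SubmonoidClass.coe_pow, Units.val_mul,
        MulMemClass.coe_mul, Units.val_inv_eq_inv_val] at hb'
      have hc : (((cls χ : Eˣ) : E)⁻¹ : E) = (⟨((gen χ.1 : Qbˣ) : Qb) ^ p, hgenE χ.1 χ.2⟩ : E)⁻¹ :=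
        rfl
      rw [Units.val_mul, mul_pow, pcToQb_coe, hb']
      change ((gen χ.1 : Qbˣ) : Qb) ^ p * ((((gen χ.1 : Qbˣ) : Qb) ^ p)⁻¹ *
        ((gen χ'.1 : Qbˣ) : Qb) ^ p) = _
      have hne : ((gen χ.1 : Qbˣ) : Qb) ^ p ≠ 0 := pow_ne_zero p (gen χ.1).ne_zero
      field_simp
    apply Subtype.ext
    exact Fermat.Agent.H47.Cft.kummerE_char_eq_of_pow_eq E ζ hζ hζE hgb (hgen χ'.1 χ'.2) hpow
  have hsurj : Function.Surjective κ := by
    intro x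
    obtain ⟨a, rfl⟩ := QuotientGroup.mk_surjective x
    obtain ⟨α, hα⟩ := IsAlgClosed.exists_pow_nat_eq (((a : E) : Qb)) hp.pos
    have hα0 : α ≠ 0 := by
      intro h0
      rw [h0, zero_pow hp.ne_zero] at hα
      exact a.ne_zero (Subtype.ext hα.symm)
    have hαE : ((Units.mk0 α hα0 : Qbˣ) : Qb) ^ p ∈ E := by
      rw [Units.val_mk0, hα]
      exact (a : E).2
    obtain ⟨χ, hχ, hχα⟩ := h2 (Units.mk0 α hα0) hαE
    refine ⟨⟨χ, hχ⟩, ?_⟩
    change (QuotientGroup.mk (cls ⟨χ, hχ⟩) : Eˣ ⧸ _) = QuotientGroup.mk a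
    rw [QuotientGroup.eq]
    -- `α / gen χ ∈ E`
    have hg1 := (Fermat.Agent.H47.Cft.isKummerGenE_iff E ζ χ (gen χ)).mp (hgen χ hχ)
    have hg2 := (Fermat.Agent.H47.Cft.isKummerGenE_iff E ζ χ (Units.mk0 α hα0)).mp hχα
    have hgen0 : ((gen χ : Qbˣ) : Qb) ≠ 0 := (gen χ).ne_zero
    have hmem : α / ((gen χ : Qbˣ) : Qb) ∈ E := by
      apply mem_of_fixed
      intro σ hσ
      have e1 := hg1 ⟨σ, hσ⟩
      have e2 := hg2 ⟨σ, hσ⟩
      rw [Units.val_mk0] at e2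
      change σ ((gen χ : Qbˣ) : Qb) = _ at e1
      change σ α = _ at e2
      rw [map_div₀, e1, e2]
      have hζ0 : (ζ : Qb) ^ (χ ⟨σ, hσ⟩).val ≠ 0 := pow_ne_zero _ ζ.ne_zero
      field_simp
    have hb0 : (⟨α / ((gen χ : Qbˣ) : Qb), hmem⟩ : E) ≠ 0 := by
      intro h0
      have : α / ((gen χ : Qbˣ) : Qb) = 0 := congrArg Subtype.val h0
      exact div_ne_zero hα0 hgen0 this
    refine ⟨Units.mk0 ⟨α / ((gen χ : Qbˣ) : Qb), hmem⟩ hb0, ?_⟩
    rw [powMonoidHom_apply]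
    apply Units.ext
    apply Subtype.ext
    rw [Units.val_pow_eq_pow_val, SubmonoidClass.coe_pow, Units.val_mul, MulMemClass.coe_mul,
      Units.val_inv_eq_inv_val]
    change (α / ((gen χ : Qbˣ) : Qb)) ^ p = ((((gen χ : Qbˣ) : Qb) ^ p)⁻¹) * ((a : E) : Qb)
    rw [div_pow, hα]
    field_simp
  rw [Subgroup.index_eq_card]
  exact Nat.card_congr (Equiv.ofBijective κ ⟨hinj, hsurj⟩)

/-- **The order of `Eˣ / (Eˣ)^p`** for a finite extension `E` of `K_v` containing `ζ_p`. -/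
theorem powCard (p : ℕ) [Fact p.Prime] (q : ℕ) [Fact q.Prime] (E : IntermediateField ℚ Qb)
    (hE : IsLocalFinite q E) (hζ : ∃ ζ ∈ E, IsPrimitiveRoot ζ p) :
    (powMonoidHom p : Eˣ →* Eˣ).range.index =
      if q = p then p ^ (2 + IntermediateField.relfinrank (localField q) E) else p ^ 2 := by
  have hp : p.Prime := Fact.out
  rw [pc_index_pow hE hp hζ, pcBall_relIndex hE hp]
  split_ifs with h
  · ring
  · ring

/-- **[LOC-CARD]** the order of `H¹(Gal(ℚ̄/E), ZMod p)`. -/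
theorem fieldH1Card : FieldH1CardStatement := by
  intro p _ _ q _ E hE hζ
  have hp : p.Prime := Fact.out
  obtain ⟨ζ₀, hζ₀E, hζ₀⟩ := hζ
  have h := pc_card_lvlHom p E (Units.mk0 ζ₀ (hζ₀.ne_zero hp.ne_zero)) hζ₀ hζ₀E
  rw [powCard p q E hE ⟨ζ₀, hζ₀E, hζ₀⟩] at h
  exact h

end Fermat.Agent.H97
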